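import Mathlib

/-!
# S41, package TR : the concrete groups

`H₁` = image of `Γ₀(N)` in `SL(2, ℚ)`, `κ` = conjugation by `δ = diag(q, 1)`
(`κ x = δ⁻¹ x δ = [[a, b/q], [q c, d]]`), `H₂ = κ H₁`, and `Δ = Γ₀(N)(ℤ[1/q])`.
-/

set_option autoImplicit false

namespace Fermat.Agent.S41

open Matrix
open scoped MatrixGroups

/-- the matrix in `SL(2, ℚ)` with prescribed entries -/
def s41trMk (a b c d : ℚ) (h : a * d - b * c = 1) : SL(2, ℚ) :=
  ⟨!![a, b; c, d], by rw [Matrix.det_fin_two_of]; exact h⟩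

@[simp] theorem s41trMk_00 (a b c d : ℚ) (h : a * d - b * c = 1) : s41trMk a b c d h 0 0 = a := rfl
@[simp] theorem s41trMk_01 (a b c d : ℚ) (h : a * d - b * c = 1) : s41trMk a b c d h 0 1 = b := rfl
@[simp] theorem s41trMk_10 (a b c d : ℚ) (h : a * d - b * c = 1) : s41trMk a b c d h 1 0 = c := rfl
@[simp] theorem s41trMk_11 (a b c d : ℚ) (h : a * d - b * c = 1) : s41trMk a b c d h 1 1 = d := rfl

theorem s41tr_ext {x y : SL(2, ℚ)} (h00 : x 0 0 = y 0 0) (h01 : x 0 1 = y 0 1)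
    (h10 : x 1 0 = y 1 0) (h11 : x 1 1 = y 1 1) : x = y := by
  ext i j
  fin_cases i <;> fin_cases j
  · exact h00
  · exact h01
  · exact h10
  · exact h11

theorem s41tr_det (x : SL(2, ℚ)) : x 0 0 * x 1 1 - x 0 1 * x 1 0 = 1 := by
  have := x.2
  rwa [Matrix.det_fin_two] at this

theorem s41tr_mul_apply (x y : SL(2, ℚ)) (i j : Fin 2) :
    (x * y) i j = x i 0 * y 0 j + x i 1 * y 1 j := by
  rw [Matrix.SpecialLinearGroup.coe_mul, Matrix.mul_apply, Fin.sum_univ_two]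

theorem s41tr_inv_00 (x : SL(2, ℚ)) : x⁻¹ 0 0 = x 1 1 := by
  rw [Matrix.SpecialLinearGroup.coe_inv, Matrix.adjugate_fin_two]; rfl
theorem s41tr_inv_01 (x : SL(2, ℚ)) : x⁻¹ 0 1 = - x 0 1 := by
  rw [Matrix.SpecialLinearGroup.coe_inv, Matrix.adjugate_fin_two]; rfl
theorem s41tr_inv_10 (x : SL(2, ℚ)) : x⁻¹ 1 0 = - x 1 0 := by
  rw [Matrix.SpecialLinearGroup.coe_inv, Matrix.adjugate_fin_two]; rfl
theorem s41tr_inv_11 (x : SL(2, ℚ)) : x⁻¹ 1 1 = x 0 0 := by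
  rw [Matrix.SpecialLinearGroup.coe_inv, Matrix.adjugate_fin_two]; rfl

theorem s41tr_one_apply (i j : Fin 2) : (1 : SL(2, ℚ)) i j = if i = j then 1 else 0 := by
  rw [Matrix.SpecialLinearGroup.coe_one, Matrix.one_apply]

/-- the cast `SL(2, ℤ) →* SL(2, ℚ)` -/
def s41trCast : SL(2, ℤ) →* SL(2, ℚ) := Matrix.SpecialLinearGroup.map (Int.castRingHom ℚ)

theorem s41trCast_apply (x : SL(2, ℤ)) (i j : Fin 2) : s41trCast x i j = ((x i j : ℤ) : ℚ) := rfl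

theorem s41trCast_injective : Function.Injective s41trCast := by
  intro x y h
  ext i j
  have := congrArg (fun z : SL(2, ℚ) => z i j) h
  simp only [s41trCast_apply] at this
  exact_mod_cast this

/-- `H₁` : the image of `Γ₀(N)` -/
def s41trH1 (N : ℕ) : Subgroup SL(2, ℚ) := (CongruenceSubgroup.Gamma0 N).map s41trCast

theorem s41tr_mem_H1 {N : ℕ} {x : SL(2, ℚ)} :
    x ∈ s41trH1 N ↔ ∃ a b c d : ℤ, x 0 0 = a ∧ x 0 1 = b ∧ x 1 0 = c ∧ x 1 1 = d ∧ (N : ℤ) ∣ c := by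
  constructor
  · rintro ⟨γ, hγ, rfl⟩
    refine ⟨γ 0 0, γ 0 1, γ 1 0, γ 1 1, rfl, rfl, rfl, rfl, ?_⟩
    have : ((γ 1 0 : ℤ) : ZMod N) = 0 := CongruenceSubgroup.Gamma0_mem.1 hγ
    exact (ZMod.intCast_zmod_eq_zero_iff_dvd _ _).1 this
  · rintro ⟨a, b, c, d, h00, h01, h10, h11, hN⟩
    have hdet : a * d - b * c = 1 := by
      have := s41tr_det x
      rw [h00, h01, h10, h11] at this
      exact_mod_cast this
    let γ : SL(2, ℤ) := ⟨!![a, b; c, d], by rw [Matrix.det_fin_two_of]; exact hdet⟩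
    refine ⟨γ, ?_, ?_⟩
    · apply CongruenceSubgroup.Gamma0_mem.2
      show ((c : ℤ) : ZMod N) = 0
      exact (ZMod.intCast_zmod_eq_zero_iff_dvd _ _).2 hN
    · apply s41tr_ext
      · exact h00.symm
      · exact h01.symm
      · exact h10.symm
      · exact h11.symm

/-- conjugation by `δ = diag(q, 1)` : `x ↦ δ⁻¹ x δ` -/
def s41trConj (q : ℕ) (hq : q ≠ 0) : SL(2, ℚ) →* SL(2, ℚ) where
  toFun x := s41trMk (x 0 0) (x 0 1 / q) (q * x 1 0) (x 1 1) (by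
    have hq' : (q : ℚ) ≠ 0 := Nat.cast_ne_zero.2 hq
    have := s41tr_det x
    field_simp
    linarith)
  map_one' := by
    apply s41tr_ext <;> simp [s41tr_one_apply]
  map_mul' x y := by
    have hq' : (q : ℚ) ≠ 0 := Nat.cast_ne_zero.2 hq
    apply s41tr_ext <;> simp only [s41tr_mul_apply, s41trMk_00, s41trMk_01, s41trMk_10, s41trMk_11]
      <;> field_simp

@[simp] theorem s41trConj_00 (q : ℕ) (hq : q ≠ 0) (x : SL(2, ℚ)) :
    s41trConj q hq x 0 0 = x 0 0 := rfl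
@[simp] theorem s41trConj_01 (q : ℕ) (hq : q ≠ 0) (x : SL(2, ℚ)) :
    s41trConj q hq x 0 1 = x 0 1 / q := rfl
@[simp] theorem s41trConj_10 (q : ℕ) (hq : q ≠ 0) (x : SL(2, ℚ)) :
    s41trConj q hq x 1 0 = q * x 1 0 := rfl
@[simp] theorem s41trConj_11 (q : ℕ) (hq : q ≠ 0) (x : SL(2, ℚ)) :
    s41trConj q hq x 1 1 = x 1 1 := rfl

theorem s41trConj_injective (q : ℕ) (hq : q ≠ 0) : Function.Injective (s41trConj q hq) := by
  have hq' : (q : ℚ) ≠ 0 := Nat.cast_ne_zero.2 hq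
  intro x y h
  have e := fun i j => congrArg (fun z : SL(2, ℚ) => z i j) h
  apply s41tr_ext
  · simpa using e 0 0
  · have := e 0 1
    simp only [s41trConj_01] at this
    field_simp at this
    exact this
  · have := e 1 0
    simp only [s41trConj_10] at this
    exact mul_left_cancel₀ hq' this
  · simpa using e 1 1

/-- `H₂ = δ⁻¹ H₁ δ` -/
def s41trH2 (q : ℕ) (hq : q ≠ 0) (N : ℕ) : Subgroup SL(2, ℚ) := (s41trH1 N).map (s41trConj q hq)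

theorem s41tr_mem_H2 {q : ℕ} {hq : q ≠ 0} {N : ℕ} {y : SL(2, ℚ)} :
    y ∈ s41trH2 q hq N ↔ ∃ a b c d : ℤ, y 0 0 = a ∧ y 0 1 = b / q ∧ y 1 0 = q * c ∧ y 1 1 = d ∧
      (N : ℤ) ∣ c := by
  have hq' : (q : ℚ) ≠ 0 := Nat.cast_ne_zero.2 hq
  constructor
  · rintro ⟨x, hx, rfl⟩
    obtain ⟨a, b, c, d, h00, h01, h10, h11, hN⟩ := s41tr_mem_H1.1 hx
    exact ⟨a, b, c, d, by simp [h00], by simp [h01], by simp [h10], by simp [h11], hN⟩
  · rintro ⟨a, b, c, d, h00, h01, h10, h11, hN⟩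
    have hdet : (a : ℚ) * d - b * c = 1 := by
      have := s41tr_det y
      rw [h00, h01, h10, h11] at this
      field_simp at this
      linarith
    refine ⟨s41trMk a b c d hdet, s41tr_mem_H1.2 ⟨a, b, c, d, rfl, rfl, rfl, rfl, hN⟩, ?_⟩
    apply s41tr_ext <;> simp [h00, h01, h10, h11]

/-- an element of `H₁` with `q ∣ c` lies in `H₂` -/
theorem s41tr_H1_mem_H2 {q : ℕ} (hq : q ≠ 0) {N : ℕ} (hqN : Nat.Coprime N q) {x : SL(2, ℚ)}
    {a b c d : ℤ} (h00 : x 0 0 = a) (h01 : x 0 1 = b) (h10 : x 1 0 = c) (h11 : x 1 1 = d)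
    (hN : (N : ℤ) ∣ c) (hqc : (q : ℤ) ∣ c) : x ∈ s41trH2 q hq N := by
  have hq' : (q : ℚ) ≠ 0 := Nat.cast_ne_zero.2 hq
  obtain ⟨c', rfl⟩ := hqc
  refine s41tr_mem_H2.2 ⟨a, q * b, c', d, h00, ?_, ?_, h11, ?_⟩
  · rw [h01]; push_cast; field_simp
  · rw [h10]; push_cast; ring
  · have hcop : IsCoprime (N : ℤ) (q : ℤ) := Nat.isCoprime_iff_coprime.2 hqN
    exact hcop.dvd_of_dvd_mul_left hN

/-- an element of `H₂` with `q ∣ b` lies in `H₁` -/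
theorem s41tr_H2_mem_H1 {q : ℕ} (hq : q ≠ 0) {N : ℕ} {y : SL(2, ℚ)}
    {a b c d : ℤ} (h00 : y 0 0 = a) (h01 : y 0 1 = b / q) (h10 : y 1 0 = q * c) (h11 : y 1 1 = d)
    (hN : (N : ℤ) ∣ c) (hqb : (q : ℤ) ∣ b) : y ∈ s41trH1 N := by
  have hq' : (q : ℚ) ≠ 0 := Nat.cast_ne_zero.2 hq
  obtain ⟨b', rfl⟩ := hqb
  refine s41tr_mem_H1.2 ⟨a, b', q * c, d, h00, ?_, ?_, h11, Dvd.dvd.mul_left hN _⟩
  · rw [h01]; push_cast; field_simp
  · rw [h10]; push_cast; ring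

end Fermat.Agent.S41
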