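import Fermat.Agent.S41.TR.Bridge

/-!
# S41, package TR : conjugation by `δ = diag(q, 1)` preserves `Δ_N` and traces
-/

set_option autoImplicit false

namespace Fermat.Agent.S41

open Matrix
open scoped MatrixGroups

theorem s41trConj_mem_Del {q : ℕ} (hq : q ≠ 0) {N : ℕ} {x : SL(2, ℚ)} (hx : x ∈ s41trDel q N) :
    s41trConj q hq x ∈ s41trDel q N := by
  have hq' : (q : ℚ) ≠ 0 := Nat.cast_ne_zero.2 hq
  obtain ⟨k, M, hM, hN⟩ := hx
  refine ⟨k + 1, fun i j => if i = 0 then (if j = 0 then q * M 0 0 else M 0 1)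
    else (if j = 0 then q * q * M 1 0 else q * M 1 1), fun i j => ?_, ?_⟩
  · fin_cases i <;> fin_cases j
    · simp only [Fin.zero_eta, Fin.isValue, if_true, s41trConj_00]
      push_cast; rw [← hM 0 0]; ring
    · simp only [Fin.zero_eta, Fin.mk_one, Fin.isValue, if_true, one_ne_zero, if_false,
        s41trConj_01]
      rw [← hM 0 1]; field_simp; ring
    · simp only [Fin.zero_eta, Fin.mk_one, Fin.isValue, if_true, one_ne_zero, if_false,
        s41trConj_10]
      push_cast; rw [← hM 1 0]; ring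
    · simp only [Fin.mk_one, Fin.isValue, one_ne_zero, if_false, s41trConj_11]
      push_cast; rw [← hM 1 1]; ring
  · simp only [Fin.isValue, one_ne_zero, if_false, if_true]
    exact Dvd.dvd.mul_left hN _

theorem s41trConj_mem_cDelta {q : ℕ} (hq : q ≠ 0) {N : ℕ} {x : SL(2, ℚ)}
    (hx : x ∈ s41cDelta q N) : s41trConj q hq x ∈ s41cDelta q N :=
  (s41tr_mem_cDelta_iff hq).2 (s41trConj_mem_Del hq ((s41tr_mem_cDelta_iff hq).1 hx))

theorem s41trConj_trace {q : ℕ} (hq : q ≠ 0) (x : SL(2, ℚ)) :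
    (s41trConj q hq x : Matrix (Fin 2) (Fin 2) ℚ).trace = (x : Matrix (Fin 2) (Fin 2) ℚ).trace := by
  rw [Matrix.trace_fin_two, Matrix.trace_fin_two, s41trConj_00, s41trConj_11]

end Fermat.Agent.S41
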