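import Fermat.Agent.S41.TR.Gen

/-!
# S41, package TR : IHARA'S LEMMA (gluing form)

A pair `(φ₁, φ₂) ∈ Hom(Γ₀(N), 𝔄)²` with `φ₁(γ) + φ₂(δ γ δ⁻¹) = 0` on `Γ₀(Nq)` (`δ = diag(q, 1)`)
comes from a homomorphism `Φ` on `Δ_N = Γ₀(N)(ℤ[1/q]) ⊂ SL(2, ℚ)` :
`Φ|Γ₀(N) = φ₁`, `Φ(δ⁻¹ γ δ) = - φ₂(γ)`.
-/

set_option autoImplicit false

namespace Fermat.Agent.S41

open Matrix
open scoped MatrixGroups

section

variable {q N : ℕ} (hq : q ≠ 0)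

/-- `Γ₀(N) ≃ H₁` -/
noncomputable def s41trE1 (N : ℕ) : CongruenceSubgroup.Gamma0 N ≃* s41trH1 N :=
  Subgroup.equivMapOfInjective _ s41trCast s41trCast_injective

theorem s41trE1_coe (γ : CongruenceSubgroup.Gamma0 N) :
    ((s41trE1 N γ : s41trH1 N) : SL(2, ℚ)) = s41trCast γ := rfl

/-- `Γ₀(N) ≃ H₂` -/
noncomputable def s41trE2 (q : ℕ) (hq : q ≠ 0) (N : ℕ) :
    CongruenceSubgroup.Gamma0 N ≃* s41trH2 q hq N :=
  (s41trE1 N).trans (Subgroup.equivMapOfInjective _ (s41trConj q hq) (s41trConj_injective q hq))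

theorem s41trE2_coe (γ : CongruenceSubgroup.Gamma0 N) :
    ((s41trE2 q hq N γ : s41trH2 q hq N) : SL(2, ℚ)) = s41trConj q hq (s41trCast γ) := rfl

end

/-- IHARA'S LEMMA, multiplicative form on `↥(H₁ ⊔ H₂)`. -/
theorem s41tr_ihara_hom {q N : ℕ} (hq : q.Prime) (hqN : Nat.Coprime N q) {A : Type*} [Group A]
    (ψ₁ ψ₂ : CongruenceSubgroup.Gamma0 N →* A)
    (hker : ∀ γ₁ γ₂ : CongruenceSubgroup.Gamma0 N, γ₂.1 0 0 = γ₁.1 0 0 → γ₂.1 0 1 = q * γ₁.1 0 1 →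
      q * γ₂.1 1 0 = γ₁.1 1 0 → γ₂.1 1 1 = γ₁.1 1 1 → ψ₁ γ₁ = ψ₂ γ₂) :
    ∃! F : ↥(s41trH1 N ⊔ s41trH2 q hq.ne_zero N) →* A,
      (∀ γ : CongruenceSubgroup.Gamma0 N,
        F ⟨s41trCast γ, Subgroup.mem_sup_left (s41trE1 N γ).2⟩ = ψ₁ γ) ∧
      (∀ γ : CongruenceSubgroup.Gamma0 N,
        F ⟨s41trConj q hq.ne_zero (s41trCast γ),
          Subgroup.mem_sup_right (s41trE2 q hq.ne_zero N γ).2⟩ = ψ₂ γ) := by
  have hq' : (q : ℚ) ≠ 0 := Nat.cast_ne_zero.2 hq.ne_zero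
  let f₁ : s41trH1 N →* A := ψ₁.comp (s41trE1 N).symm.toMonoidHom
  let f₂ : s41trH2 q hq.ne_zero N →* A := ψ₂.comp (s41trE2 q hq.ne_zero N).symm.toMonoidHom
  have hf₁ : ∀ γ, f₁ (s41trE1 N γ) = ψ₁ γ := fun γ => by
    show ψ₁ ((s41trE1 N).symm (s41trE1 N γ)) = _
    rw [MulEquiv.symm_apply_apply]
  have hf₂ : ∀ γ, f₂ (s41trE2 q hq.ne_zero N γ) = ψ₂ γ := fun γ => by
    show ψ₂ ((s41trE2 q hq.ne_zero N).symm (s41trE2 q hq.ne_zero N γ)) = _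
    rw [MulEquiv.symm_apply_apply]
  have hagree : ∀ (x : SL(2, ℚ)) (h1 : x ∈ s41trH1 N) (h2 : x ∈ s41trH2 q hq.ne_zero N),
      f₁ ⟨x, h1⟩ = f₂ ⟨x, h2⟩ := by
    intro x h1 h2
    obtain ⟨γ₁, hγ₁⟩ := (s41trE1 N).surjective ⟨x, h1⟩
    obtain ⟨γ₂, hγ₂⟩ := (s41trE2 q hq.ne_zero N).surjective ⟨x, h2⟩
    rw [← hγ₁, ← hγ₂, hf₁, hf₂]
    have e1 : s41trCast γ₁ = x := by rw [← s41trE1_coe, hγ₁]
    have e2 : s41trConj q hq.ne_zero (s41trCast γ₂) = x := by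
      rw [← s41trE2_coe hq.ne_zero, hγ₂]
    have e : ∀ i j, s41trCast γ₁ i j = s41trConj q hq.ne_zero (s41trCast γ₂) i j := by
      intro i j; rw [e1, e2]
    apply hker
    · have := e 0 0
      simp only [s41trConj_00, s41trCast_apply] at this
      exact_mod_cast this.symm
    · have := e 0 1
      simp only [s41trConj_01, s41trCast_apply] at this
      have h : ((γ₂.1 0 1 : ℤ) : ℚ) = (((q : ℤ) * γ₁.1 0 1 : ℤ) : ℚ) := by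
        push_cast; rw [this]; field_simp
      exact_mod_cast h
    · have := e 1 0
      simp only [s41trConj_10, s41trCast_apply] at this
      have h : ((((q : ℤ) * γ₂.1 1 0 : ℤ)) : ℚ) = ((γ₁.1 1 0 : ℤ) : ℚ) := by
        push_cast; rw [this]
      exact_mod_cast h
    · have := e 1 1
      simp only [s41trConj_11, s41trCast_apply] at this
      exact_mod_cast this.symm
  obtain ⟨F, ⟨hF1, hF2⟩, huniq⟩ := s41tr_glue_sup (s41tr_NF hq hqN) hagree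
  refine ⟨F, ⟨fun γ => ?_, fun γ => ?_⟩, ?_⟩
  · rw [← hf₁ γ, ← hF1]; rfl
  · rw [← hf₂ γ, ← hF2]; rfl
  · rintro F' ⟨h1, h2⟩
    apply huniq
    constructor
    · intro x
      obtain ⟨γ, rfl⟩ := (s41trE1 N).surjective x
      rw [hf₁, ← h1]; rfl
    · intro x
      obtain ⟨γ, rfl⟩ := (s41trE2 q hq.ne_zero N).surjective x
      rw [hf₂, ← h2]; rfl

/-- IHARA'S LEMMA, additive function form on `Δ_N`. -/
theorem s41tr_ihara {q N : ℕ} (hq : q.Prime) (hqN : Nat.Coprime N q) {𝔄 : Type*} [AddCommGroup 𝔄]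
    (φ₁ φ₂ : Additive (CongruenceSubgroup.Gamma0 N) →+ 𝔄)
    (hker : ∀ γ₁ γ₂ : CongruenceSubgroup.Gamma0 N, γ₂.1 0 0 = γ₁.1 0 0 → γ₂.1 0 1 = q * γ₁.1 0 1 →
      q * γ₂.1 1 0 = γ₁.1 1 0 → γ₂.1 1 1 = γ₁.1 1 1 →
      φ₁ (Additive.ofMul γ₁) + φ₂ (Additive.ofMul γ₂) = 0) :
    ∃ Φ : SL(2, ℚ) → 𝔄,
      (∀ x ∈ s41trDel q N, ∀ y ∈ s41trDel q N, Φ (x * y) = Φ x + Φ y) ∧
      (∀ γ : CongruenceSubgroup.Gamma0 N, Φ (s41trCast γ) = φ₁ (Additive.ofMul γ)) ∧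
      (∀ γ : CongruenceSubgroup.Gamma0 N,
        Φ (s41trConj q hq.ne_zero (s41trCast γ)) = - φ₂ (Additive.ofMul γ)) := by
  classical
  let ψ₁ : CongruenceSubgroup.Gamma0 N →* Multiplicative 𝔄 := AddMonoidHom.toMultiplicativeRight φ₁
  let ψ₂ : CongruenceSubgroup.Gamma0 N →* Multiplicative 𝔄 :=
    AddMonoidHom.toMultiplicativeRight (-φ₂)
  have hψ : ∀ γ₁ γ₂ : CongruenceSubgroup.Gamma0 N, γ₂.1 0 0 = γ₁.1 0 0 → γ₂.1 0 1 = q * γ₁.1 0 1 →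
      q * γ₂.1 1 0 = γ₁.1 1 0 → γ₂.1 1 1 = γ₁.1 1 1 → ψ₁ γ₁ = ψ₂ γ₂ := by
    intro γ₁ γ₂ h00 h01 h10 h11
    show Multiplicative.ofAdd (φ₁ (Additive.ofMul γ₁)) =
      Multiplicative.ofAdd ((-φ₂) (Additive.ofMul γ₂))
    rw [AddMonoidHom.neg_apply, eq_neg_of_add_eq_zero_left (hker γ₁ γ₂ h00 h01 h10 h11)]
  obtain ⟨F, ⟨hF1, hF2⟩, -⟩ := s41tr_ihara_hom hq hqN ψ₁ ψ₂ hψ
  have hsup := s41tr_sup_eq hq hqN
  refine ⟨fun x => if h : x ∈ s41trH1 N ⊔ s41trH2 q hq.ne_zero N then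
    Multiplicative.toAdd (F ⟨x, h⟩) else 0, ?_, ?_, ?_⟩
  · intro x hx y hy
    rw [← hsup] at hx hy
    have hxy := Subgroup.mul_mem _ hx hy
    simp only [dif_pos hx, dif_pos hy, dif_pos hxy]
    have : (⟨x * y, hxy⟩ : ↥(s41trH1 N ⊔ s41trH2 q hq.ne_zero N)) = ⟨x, hx⟩ * ⟨y, hy⟩ := rfl
    rw [this, map_mul]
    rfl
  · intro γ
    have h : s41trCast γ ∈ s41trH1 N ⊔ s41trH2 q hq.ne_zero N :=
      Subgroup.mem_sup_left (s41trE1 N γ).2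
    simp only [dif_pos h]
    rw [hF1]
    rfl
  · intro γ
    have h : s41trConj q hq.ne_zero (s41trCast γ) ∈ s41trH1 N ⊔ s41trH2 q hq.ne_zero N :=
      Subgroup.mem_sup_right (s41trE2 q hq.ne_zero N γ).2
    simp only [dif_pos h]
    rw [hF2]
    rfl

end Fermat.Agent.S41
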