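import Fermat.Agent.S41.CSP.Defs
import Fermat.Agent.S41.TR.Main

/-!
# S41, package TR : bridge to the CSP model (`s41cDelta q N` is the carrier of `s41trDel q N`)
-/

set_option autoImplicit false

namespace Fermat.Agent.S41

open Matrix
open scoped MatrixGroups

theorem s41tr_mem_cDelta_iff {q : ℕ} (hq : q ≠ 0) {N : ℕ} {x : SL(2, ℚ)} :
    x ∈ s41cDelta q N ↔ x ∈ s41trDel q N := by
  have hq' : (q : ℚ) ≠ 0 := Nat.cast_ne_zero.2 hq
  constructor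
  · rintro ⟨hG, z, hz, hxz⟩
    obtain ⟨k00, m00, h00⟩ := hG 0 0
    obtain ⟨k01, m01, h01⟩ := hG 0 1
    obtain ⟨k11, m11, h11⟩ := hG 1 1
    obtain ⟨k10, m10, h10⟩ := hz
    refine ⟨k00 + k01 + k10 + k11, fun i j => if i = 0 then
        (if j = 0 then m00 * (q : ℤ) ^ (k01 + k10 + k11) else m01 * (q : ℤ) ^ (k00 + k10 + k11))
      else (if j = 0 then N * m10 * (q : ℤ) ^ (k00 + k01 + k11)
        else m11 * (q : ℤ) ^ (k00 + k01 + k10)), fun i j => ?_, ?_⟩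
    · fin_cases i <;> fin_cases j
      · simp only [Fin.zero_eta, Fin.isValue, if_true]
        push_cast; rw [← h00]; ring
      · simp only [Fin.zero_eta, Fin.mk_one, Fin.isValue, if_true, one_ne_zero, if_false]
        push_cast; rw [← h01]; ring
      · simp only [Fin.zero_eta, Fin.mk_one, Fin.isValue, if_true, one_ne_zero, if_false]
        push_cast; rw [← h10, hxz]; ring
      · simp only [Fin.mk_one, Fin.isValue, one_ne_zero, if_false]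
        push_cast; rw [← h11]; ring
    · simp only [Fin.isValue, one_ne_zero, if_false, if_true]
      exact ⟨m10 * (q : ℤ) ^ (k00 + k01 + k11), by ring⟩
  · rintro ⟨k, M, hM, N', hN'⟩
    refine ⟨fun i j => ⟨k, M i j, by rw [← hM i j]; ring⟩, (N' : ℚ) / (q : ℚ) ^ k,
      ⟨k, N', by field_simp⟩, ?_⟩
    have := hM 1 0
    rw [hN'] at this
    push_cast at this
    field_simp
    linear_combination this

theorem s41tr_cDelta_eq {q : ℕ} (hq : q ≠ 0) (N : ℕ) :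
    s41cDelta q N = (s41trDel q N : Set SL(2, ℚ)) :=
  Set.ext fun _ => s41tr_mem_cDelta_iff hq

/-- IHARA'S LEMMA in the CSP model. -/
theorem s41tr_ihara_cDelta {q N : ℕ} (hq : q.Prime) (hqN : Nat.Coprime N q) {𝔄 : Type*}
    [AddCommGroup 𝔄] (φ₁ φ₂ : Additive (CongruenceSubgroup.Gamma0 N) →+ 𝔄)
    (hker : ∀ γ₁ γ₂ : CongruenceSubgroup.Gamma0 N, γ₂.1 0 0 = γ₁.1 0 0 → γ₂.1 0 1 = q * γ₁.1 0 1 →
      q * γ₂.1 1 0 = γ₁.1 1 0 → γ₂.1 1 1 = γ₁.1 1 1 →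
      φ₁ (Additive.ofMul γ₁) + φ₂ (Additive.ofMul γ₂) = 0) :
    ∃ Φ : SL(2, ℚ) → 𝔄,
      (∀ x ∈ s41cDelta q N, ∀ y ∈ s41cDelta q N, Φ (x * y) = Φ x + Φ y) ∧
      (∀ γ : CongruenceSubgroup.Gamma0 N, Φ (s41trCast γ) = φ₁ (Additive.ofMul γ)) ∧
      (∀ γ : CongruenceSubgroup.Gamma0 N,
        Φ (s41trConj q hq.ne_zero (s41trCast γ)) = - φ₂ (Additive.ofMul γ)) := by
  obtain ⟨Φ, h1, h2, h3⟩ := s41tr_ihara hq hqN φ₁ φ₂ hker
  exact ⟨Φ, fun x hx y hy => h1 x ((s41tr_mem_cDelta_iff hq.ne_zero).1 hx) y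
    ((s41tr_mem_cDelta_iff hq.ne_zero).1 hy), h2, h3⟩

end Fermat.Agent.S41
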