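import Fermat.Agent.S41.TR.NF

/-!
# S41, package TR : generation.  `Δ_N = ⟨Γ₀(N), δ⁻¹ Γ₀(N) δ⟩`

Descent on the `q`-height with the row operations `l(Ns) u(t) ∈ Γ₀(N)` and
`δ⁻¹ u(t) l(Ns) δ ∈ δ⁻¹ Γ₀(N) δ`.
-/

set_option autoImplicit false

namespace Fermat.Agent.S41

open Matrix
open scoped MatrixGroups

/-- `Δ_N = Γ₀(N)(ℤ[1/q])` : some `q ^ k • g` is integral with lower left entry divisible by `N` -/
def s41trDel (q N : ℕ) : Subgroup SL(2, ℚ) where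
  carrier := {g | ∃ (k : ℕ) (M : Fin 2 → Fin 2 → ℤ), S41trInt q k g M ∧ (N : ℤ) ∣ M 1 0}
  mul_mem' := by
    rintro g g' ⟨k, M, hM, hN⟩ ⟨k', M', hM', hN'⟩
    refine ⟨k + k', fun i j => M i 0 * M' 0 j + M i 1 * M' 1 j, fun i j => ?_, ?_⟩
    · rw [s41tr_mul_apply]
      push_cast
      rw [← hM i 0, ← hM i 1, ← hM' 0 j, ← hM' 1 j]
      ring
    · exact dvd_add (Dvd.dvd.mul_right hN _) (Dvd.dvd.mul_left hN' _)
  one_mem' := by
    refine ⟨0, fun i j => if i = j then 1 else 0, fun i j => ?_, by simp⟩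
    rw [s41tr_one_apply]
    by_cases h : i = j <;> simp [h]
  inv_mem' := by
    rintro g ⟨k, M, hM, hN⟩
    refine ⟨k, fun i j => if i = 0 then (if j = 0 then M 1 1 else - M 0 1)
      else (if j = 0 then - M 1 0 else M 0 0), fun i j => ?_, by simpa using hN⟩
    fin_cases i <;> fin_cases j
    · simp [s41tr_inv_00, hM 1 1]
    · simp [s41tr_inv_01, ← hM 0 1]
    · simp [s41tr_inv_10, ← hM 1 0]
    · simp [s41tr_inv_11, hM 0 0]

theorem s41tr_mem_Del {q N : ℕ} {g : SL(2, ℚ)} :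
    g ∈ s41trDel q N ↔ ∃ (k : ℕ) (M : Fin 2 → Fin 2 → ℤ), S41trInt q k g M ∧ (N : ℤ) ∣ M 1 0 :=
  Iff.rfl

theorem s41tr_H1_le_Del (q N : ℕ) : s41trH1 N ≤ s41trDel q N := by
  intro x hx
  obtain ⟨a, b, c, d, h00, h01, h10, h11, hN⟩ := s41tr_mem_H1.1 hx
  refine ⟨0, fun i j => if i = 0 then (if j = 0 then a else b) else (if j = 0 then c else d),
    fun i j => ?_, by simpa using hN⟩
  fin_cases i <;> fin_cases j <;> simp [h00, h01, h10, h11]

theorem s41tr_H2_le_Del {q : ℕ} (hq : q ≠ 0) (N : ℕ) : s41trH2 q hq N ≤ s41trDel q N := by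
  have hq' : (q : ℚ) ≠ 0 := Nat.cast_ne_zero.2 hq
  intro y hy
  obtain ⟨a, b, c, d, h00, h01, h10, h11, hN⟩ := s41tr_mem_H2.1 hy
  refine ⟨1, fun i j => if i = 0 then (if j = 0 then q * a else b)
    else (if j = 0 then q * q * c else q * d), fun i j => ?_, ?_⟩
  · fin_cases i <;> fin_cases j <;> simp [h00, h01, h10, h11] <;> field_simp
  · simpa using Dvd.dvd.mul_left hN _

/-- the determinant of an integral multiple -/
theorem s41tr_int_det {q m : ℕ} {g : SL(2, ℚ)} {M : Fin 2 → Fin 2 → ℤ} (hM : S41trInt q m g M) :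
    M 0 0 * M 1 1 - M 0 1 * M 1 0 = (q : ℤ) ^ (2 * m) := by
  have h : ((M 0 0 * M 1 1 - M 0 1 * M 1 0 : ℤ) : ℚ) = (((q : ℤ) ^ (2 * m) : ℤ) : ℚ) := by
    push_cast
    rw [← hM 0 0, ← hM 0 1, ← hM 1 0, ← hM 1 1]
    have := s41tr_det g
    rw [pow_mul, sq]
    linear_combination ((q : ℚ) ^ m * (q : ℚ) ^ m) * this
  exact_mod_cast h

/-- an integral element of `Δ_N` lies in `Γ₀(N)` -/
theorem s41tr_Del_int_mem_H1 {q N : ℕ} (hqN : Nat.Coprime N q) {g : SL(2, ℚ)}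
    (hg : g ∈ s41trDel q N) {M : Fin 2 → Fin 2 → ℤ} (hM : S41trInt q 0 g M) : g ∈ s41trH1 N := by
  obtain ⟨k', M', hM', hN'⟩ := hg
  have h : ∀ i j, g i j = M i j := fun i j => by simpa using hM i j
  refine s41tr_mem_H1.2 ⟨M 0 0, M 0 1, M 1 0, M 1 1, h 0 0, h 0 1, h 1 0, h 1 1, ?_⟩
  have e : (q : ℤ) ^ k' * M 1 0 = M' 1 0 := by
    have := hM' 1 0
    rw [h 1 0] at this
    exact_mod_cast this
  have hcop : IsCoprime (N : ℤ) ((q : ℤ) ^ k') :=
    (Nat.isCoprime_iff_coprime.2 hqN).pow_right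
  exact hcop.dvd_of_dvd_mul_left (e ▸ hN')

section rows

variable {q : ℕ} [Fact q.Prime] {N : ℕ}

/-- second row `(Ns, 1 + Nst)` of `l(Ns) u(t)` killing a rank one matrix mod `q` -/
theorem s41tr_rowX (hN : (N : ZMod q) ≠ 0) (A B C D : ℤ)
    (hdet : ((A * D - B * C : ℤ) : ZMod q) = 0) :
    ∃ s t : ℤ, ((N * s * A + (1 + N * s * t) * C : ℤ) : ZMod q) = 0 ∧
      ((N * s * B + (1 + N * s * t) * D : ℤ) : ZMod q) = 0 := by
  push_cast at hdet
  by_cases hC : (C : ZMod q) = 0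
  · by_cases hD : (D : ZMod q) = 0
    · exact ⟨0, 0, by simp [hC], by simp [hD]⟩
    · have hA : (A : ZMod q) = 0 := by
        rw [hC, mul_zero, sub_zero] at hdet
        exact (mul_eq_zero.1 hdet).resolve_right hD
      obtain ⟨t, ht⟩ := ZMod.intCast_surjective ((1 - (B : ZMod q)) / (D : ZMod q))
      obtain ⟨s, hs⟩ := ZMod.intCast_surjective (- (D : ZMod q) / (N : ZMod q))
      refine ⟨s, t, ?_, ?_⟩
      · push_cast; rw [hA, hC]; ring
      · push_cast; rw [ht, hs]; field_simp; ring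
  · obtain ⟨t, ht⟩ := ZMod.intCast_surjective ((1 - (A : ZMod q)) / (C : ZMod q))
    obtain ⟨s, hs⟩ := ZMod.intCast_surjective (- (C : ZMod q) / (N : ZMod q))
    refine ⟨s, t, ?_, ?_⟩
    · push_cast; rw [ht, hs]; field_simp; ring
    · push_cast; rw [ht, hs]; field_simp; linear_combination hdet

/-- first row `(1 + Nst, t)` of `u(t) l(Ns)` killing a rank one matrix mod `q` -/
theorem s41tr_rowY (hN : (N : ZMod q) ≠ 0) (A B C D : ℤ)
    (hdet : ((A * D - B * C : ℤ) : ZMod q) = 0) :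
    ∃ s t : ℤ, (((1 + N * s * t) * A + t * C : ℤ) : ZMod q) = 0 ∧
      (((1 + N * s * t) * B + t * D : ℤ) : ZMod q) = 0 := by
  push_cast at hdet
  by_cases hA : (A : ZMod q) = 0
  · by_cases hB : (B : ZMod q) = 0
    · exact ⟨0, 0, by simp [hA], by simp [hB]⟩
    · have hC : (C : ZMod q) = 0 := by
        rw [hA, zero_mul, zero_sub, neg_eq_zero] at hdet
        exact (mul_eq_zero.1 hdet).resolve_left hB
      obtain ⟨s, hs⟩ := ZMod.intCast_surjective ((1 - (D : ZMod q)) / ((N : ZMod q) * (B : ZMod q)))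
      refine ⟨s, -B, ?_, ?_⟩
      · push_cast; rw [hA, hC]; ring
      · push_cast; rw [hs]; field_simp; ring
  · obtain ⟨s, hs⟩ := ZMod.intCast_surjective ((1 - (C : ZMod q)) / ((N : ZMod q) * (A : ZMod q)))
    refine ⟨s, -A, ?_, ?_⟩
    · push_cast; rw [hs]; field_simp; ring
    · push_cast; rw [hs]; field_simp; linear_combination (-1 : ZMod q) * hdet

end rows

theorem s41tr_dvd_iff_zmod {q : ℕ} (z : ℤ) : (q : ℤ) ∣ z ↔ ((z : ℤ) : ZMod q) = 0 :=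
  (ZMod.intCast_zmod_eq_zero_iff_dvd z q).symm

theorem s41tr_N_ne_zero {q : ℕ} (hq : q.Prime) {N : ℕ} (hqN : Nat.Coprime N q) :
    (N : ZMod q) ≠ 0 := by
  intro h
  have hd : q ∣ N := (ZMod.natCast_eq_zero_iff N q).1 h
  have : q ∣ Nat.gcd N q := Nat.dvd_gcd hd dvd_rfl
  rw [hqN] at this
  exact hq.one_lt.ne' (Nat.dvd_one.1 this)

/-- STEP 1 : an element of `Γ₀(N)` making the second row divisible by `q` -/
theorem s41tr_gen_step1 {q : ℕ} (hq : q.Prime) {N : ℕ} (hqN : Nat.Coprime N q) {k : ℕ}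
    {g : SL(2, ℚ)} {M : Fin 2 → Fin 2 → ℤ} (hM : S41trInt q (k + 1) g M) :
    ∃ x ∈ s41trH1 N, ∃ M' : Fin 2 → Fin 2 → ℤ, S41trInt q (k + 1) (x * g) M' ∧
      (q : ℤ) ∣ M' 1 0 ∧ (q : ℤ) ∣ M' 1 1 := by
  have : Fact q.Prime := Fact.mk hq
  have hdet := s41tr_int_det hM
  have hdet' : ((M 0 0 * M 1 1 - M 0 1 * M 1 0 : ℤ) : ZMod q) = 0 := by
    rw [← s41tr_dvd_iff_zmod, hdet]
    exact dvd_pow_self _ (by omega)
  obtain ⟨s, t, h1, h2⟩ := s41tr_rowX (s41tr_N_ne_zero hq hqN) (M 0 0) (M 0 1) (M 1 0) (M 1 1) hdet'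
  have hdx : (1 : ℚ) * ((1 + N * s * t : ℤ) : ℚ) - ((t : ℤ) : ℚ) * ((N * s : ℤ) : ℚ) = 1 := by
    push_cast; ring
  refine ⟨s41trMk 1 t ((N * s : ℤ) : ℚ) ((1 + N * s * t : ℤ) : ℚ) hdx,
    s41tr_mem_H1.2 ⟨1, t, N * s, 1 + N * s * t, by simp, by simp, by simp, by simp,
      Dvd.intro _ rfl⟩,
    fun i j => if i = 0 then M 0 j + t * M 1 j else N * s * M 0 j + (1 + N * s * t) * M 1 j,
    fun i j => ?_, ?_, ?_⟩
  · rw [s41tr_mul_apply]
    fin_cases i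
    · simp only [Fin.zero_eta, Fin.isValue, if_true, s41trMk_00, s41trMk_01]
      push_cast
      rw [← hM 0 j, ← hM 1 j]
      ring
    · simp only [Fin.mk_one, Fin.isValue, one_ne_zero, if_false, s41trMk_10, s41trMk_11]
      push_cast
      rw [← hM 0 j, ← hM 1 j]
      ring
  · rw [s41tr_dvd_iff_zmod]
    simpa using h1
  · rw [s41tr_dvd_iff_zmod]
    simpa using h2

/-- STEP 2 : an element of `δ⁻¹ Γ₀(N) δ` lowering the height -/
theorem s41tr_gen_step2 {q : ℕ} (hq : q.Prime) {N : ℕ} (hqN : Nat.Coprime N q) {k : ℕ}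
    {g : SL(2, ℚ)} {M : Fin 2 → Fin 2 → ℤ} (hM : S41trInt q (k + 1) g M)
    (h10 : (q : ℤ) ∣ M 1 0) (h11 : (q : ℤ) ∣ M 1 1) :
    ∃ y ∈ s41trH2 q hq.ne_zero N, ∃ M' : Fin 2 → Fin 2 → ℤ, S41trInt q k (y * g) M' := by
  have : Fact q.Prime := Fact.mk hq
  have hq' : (q : ℚ) ≠ 0 := Nat.cast_ne_zero.2 hq.ne_zero
  have hqz : (q : ℤ) ≠ 0 := Nat.cast_ne_zero.2 hq.ne_zero
  obtain ⟨C, hC⟩ := h10
  obtain ⟨D, hD⟩ := h11
  have hdet := s41tr_int_det hM
  have hdet2 : M 0 0 * D - M 0 1 * C = (q : ℤ) ^ (2 * k + 1) := by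
    apply mul_left_cancel₀ hqz
    rw [← pow_succ']
    have e2 : 2 * (k + 1) = 2 * k + 1 + 1 := by ring
    rw [e2] at hdet
    rw [← hdet, hC, hD]
    ring
  have hdet' : ((M 0 0 * D - M 0 1 * C : ℤ) : ZMod q) = 0 := by
    rw [← s41tr_dvd_iff_zmod, hdet2]
    exact dvd_pow_self _ (by omega)
  obtain ⟨s, t, h1, h2⟩ := s41tr_rowY (s41tr_N_ne_zero hq hqN) (M 0 0) (M 0 1) C D hdet'
  rw [← s41tr_dvd_iff_zmod] at h1 h2
  obtain ⟨P, hP⟩ := h1
  obtain ⟨Q, hQ⟩ := h2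
  have hdy : ((1 + N * s * t : ℤ) : ℚ) * 1 - (((t : ℤ) : ℚ) / q) * ((q : ℚ) * ((N * s : ℤ) : ℚ)) = 1 := by
    push_cast; field_simp; ring
  refine ⟨s41trMk ((1 + N * s * t : ℤ) : ℚ) (((t : ℤ) : ℚ) / q) ((q : ℚ) * ((N * s : ℤ) : ℚ)) 1 hdy,
    s41tr_mem_H2.2 ⟨1 + N * s * t, t, N * s, 1, by simp, by simp, by simp, by simp,
      Dvd.intro _ rfl⟩,
    fun i j => if i = 0 then (if j = 0 then P else Q)
      else (if j = 0 then N * s * M 0 0 + C else N * s * M 0 1 + D), fun i j => ?_⟩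
  have e10 : (q : ℚ) ^ (k + 1) * g 1 0 = q * C := by rw [hM 1 0, hC]; push_cast; ring
  have e11 : (q : ℚ) ^ (k + 1) * g 1 1 = q * D := by rw [hM 1 1, hD]; push_cast; ring
  have eP : ((1 + N * s * t : ℤ) : ℚ) * M 0 0 + t * C = q * P := by exact_mod_cast hP
  have eQ : ((1 + N * s * t : ℤ) : ℚ) * M 0 1 + t * D = q * Q := by exact_mod_cast hQ
  have e00 := hM 0 0
  have e01 := hM 0 1
  have k10 : (q : ℚ) ^ k * g 1 0 = C := by
    apply mul_left_cancel₀ hq'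
    rw [← e10]; ring
  have k11 : (q : ℚ) ^ k * g 1 1 = D := by
    apply mul_left_cancel₀ hq'
    rw [← e11]; ring
  rw [s41tr_mul_apply]
  apply mul_left_cancel₀ hq'
  fin_cases i <;> fin_cases j
  · simp only [Fin.zero_eta, Fin.isValue, if_true, s41trMk_00, s41trMk_01]
    rw [← eP, ← e00]
    field_simp
    linear_combination (t : ℚ) * k10
  · simp only [Fin.zero_eta, Fin.mk_one, Fin.isValue, if_true, one_ne_zero, if_false, s41trMk_00,
      s41trMk_01]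
    rw [← eQ, ← e01]
    field_simp
    linear_combination (t : ℚ) * k11
  · simp only [Fin.zero_eta, Fin.mk_one, Fin.isValue, if_true, one_ne_zero, if_false, s41trMk_10,
      s41trMk_11]
    push_cast
    rw [← e00]
    linear_combination e10
  · simp only [Fin.mk_one, Fin.isValue, one_ne_zero, if_false, s41trMk_10, s41trMk_11]
    push_cast
    rw [← e01]
    linear_combination e11

/-- descent on the height -/
theorem s41tr_gen_aux {q : ℕ} (hq : q.Prime) {N : ℕ} (hqN : Nat.Coprime N q) :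
    ∀ (k : ℕ) (g : SL(2, ℚ)), g ∈ s41trDel q N → (∃ M : Fin 2 → Fin 2 → ℤ, S41trInt q k g M) →
      g ∈ s41trH1 N ⊔ s41trH2 q hq.ne_zero N := by
  intro k
  induction k with
  | zero =>
    rintro g hg ⟨M, hM⟩
    exact Subgroup.mem_sup_left (s41tr_Del_int_mem_H1 hqN hg hM)
  | succ k ih =>
    rintro g hg ⟨M, hM⟩
    obtain ⟨x, hx, M1, hM1, h10, h11⟩ := s41tr_gen_step1 hq hqN hM
    obtain ⟨y, hy, M2, hM2⟩ := s41tr_gen_step2 hq hqN hM1 h10 h11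
    have hmem : y * (x * g) ∈ s41trDel q N :=
      (s41trDel q N).mul_mem (s41tr_H2_le_Del hq.ne_zero N hy)
        ((s41trDel q N).mul_mem (s41tr_H1_le_Del q N hx) hg)
    have h := ih (y * (x * g)) hmem ⟨M2, hM2⟩
    have e : g = x⁻¹ * (y⁻¹ * (y * (x * g))) := by group
    rw [e]
    exact Subgroup.mul_mem _ (Subgroup.inv_mem _ (Subgroup.mem_sup_left hx))
      (Subgroup.mul_mem _ (Subgroup.inv_mem _ (Subgroup.mem_sup_right hy)) h)

/-- GENERATION : `Δ_N = ⟨Γ₀(N), δ⁻¹ Γ₀(N) δ⟩`. -/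
theorem s41tr_sup_eq {q : ℕ} (hq : q.Prime) {N : ℕ} (hqN : Nat.Coprime N q) :
    s41trH1 N ⊔ s41trH2 q hq.ne_zero N = s41trDel q N := by
  apply le_antisymm
  · exact sup_le (s41tr_H1_le_Del q N) (s41tr_H2_le_Del hq.ne_zero N)
  · intro g hg
    obtain ⟨k, M, hM, hN⟩ := hg
    exact s41tr_gen_aux hq hqN k g ⟨k, M, hM, hN⟩ ⟨M, hM⟩

end Fermat.Agent.S41
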