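import Mathlib

/-!
# S41, package TR : the abstract gluing lemma (amalgams through a normal-form property)

`G` a group generated by two subgroups `H₁`, `H₂`, `K = H₁ ⊓ H₂`.  If every nonempty alternating
product of letters from `H₁ ∖ K` and `H₂ ∖ K` is `≠ 1` (NORMAL FORM PROPERTY), then two homomorphisms
`f₁ : H₁ →* A`, `f₂ : H₂ →* A` agreeing on `K` glue uniquely to a homomorphism `G →* A`.

No trees, no `PushoutI`: every word is equivalent to an alternating word without letters in `K`, or to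
a single letter of `K` (structural induction, merging neighbours).
-/

set_option autoImplicit false

namespace Fermat.Agent.S41

open Monoid

section Glue

variable {G : Type*} [Group G] (H₁ H₂ : Subgroup G) {A : Type*} [Group A]
  (f₁ : H₁ →* A) (f₂ : H₂ →* A)

/-- the value in `G` of a letter -/
def s41trVal : H₁ ⊕ H₂ → G := Sum.elim (fun x => (x : G)) (fun x => (x : G))

/-- the value in `A` of a letter -/
def s41trF {H₁ H₂ : Subgroup G} (f₁ : H₁ →* A) (f₂ : H₂ →* A) : H₁ ⊕ H₂ → A := Sum.elim f₁ f₂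

/-- the NORMAL FORM PROPERTY : nonempty alternating words without letters in `K` are `≠ 1` -/
def S41trNF : Prop :=
  ∀ w : List (H₁ ⊕ H₂), w ≠ [] → (∀ l ∈ w, s41trVal H₁ H₂ l ∉ H₁ ⊓ H₂) →
    w.IsChain (fun a b => a.isLeft ≠ b.isLeft) → (w.map (s41trVal H₁ H₂)).prod ≠ 1

variable {H₁ H₂} {f₁ f₂}

/-- merging a letter into its right neighbour -/
theorem s41tr_merge_left
    (hagree : ∀ (x : G) (h1 : x ∈ H₁) (h2 : x ∈ H₂), f₁ ⟨x, h1⟩ = f₂ ⟨x, h2⟩)
    (l m : H₁ ⊕ H₂) (h : l.isLeft = m.isLeft ∨ s41trVal H₁ H₂ l ∈ H₁ ⊓ H₂) :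
    ∃ m' : H₁ ⊕ H₂, s41trVal H₁ H₂ m' = s41trVal H₁ H₂ l * s41trVal H₁ H₂ m ∧
      s41trF f₁ f₂ m' = s41trF f₁ f₂ l * s41trF f₁ f₂ m ∧ m'.isLeft = m.isLeft := by
  rcases l with a | a <;> rcases m with b | b
  · exact ⟨Sum.inl (a * b), rfl, map_mul f₁ a b, rfl⟩
  · have ha : (a : G) ∈ H₂ := by
      rcases h with h | h
      · simp at h
      · exact h.2
    refine ⟨Sum.inr (⟨a, ha⟩ * b), rfl, ?_, rfl⟩
    show f₂ (⟨a, ha⟩ * b) = f₁ a * f₂ b
    rw [map_mul, ← hagree (a : G) a.2 ha]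
  · have ha : (a : G) ∈ H₁ := by
      rcases h with h | h
      · simp at h
      · exact h.1
    refine ⟨Sum.inl (⟨a, ha⟩ * b), rfl, ?_, rfl⟩
    show f₁ (⟨a, ha⟩ * b) = f₂ a * f₁ b
    rw [map_mul, hagree (a : G) ha a.2]
  · exact ⟨Sum.inr (a * b), rfl, map_mul f₂ a b, rfl⟩

/-- merging a letter into its left neighbour -/
theorem s41tr_merge_right
    (hagree : ∀ (x : G) (h1 : x ∈ H₁) (h2 : x ∈ H₂), f₁ ⟨x, h1⟩ = f₂ ⟨x, h2⟩)
    (l m : H₁ ⊕ H₂) (h : l.isLeft = m.isLeft ∨ s41trVal H₁ H₂ m ∈ H₁ ⊓ H₂) :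
    ∃ l' : H₁ ⊕ H₂, s41trVal H₁ H₂ l' = s41trVal H₁ H₂ l * s41trVal H₁ H₂ m ∧
      s41trF f₁ f₂ l' = s41trF f₁ f₂ l * s41trF f₁ f₂ m := by
  rcases l with a | a <;> rcases m with b | b
  · exact ⟨Sum.inl (a * b), rfl, map_mul f₁ a b⟩
  · have hb : (b : G) ∈ H₁ := by
      rcases h with h | h
      · simp at h
      · exact h.1
    refine ⟨Sum.inl (a * ⟨b, hb⟩), rfl, ?_⟩
    show f₁ (a * ⟨b, hb⟩) = f₁ a * f₂ b
    rw [map_mul, hagree (b : G) hb b.2]
  · have hb : (b : G) ∈ H₂ := by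
      rcases h with h | h
      · simp at h
      · exact h.2
    refine ⟨Sum.inr (a * ⟨b, hb⟩), rfl, ?_⟩
    show f₂ (a * ⟨b, hb⟩) = f₂ a * f₁ b
    rw [map_mul, ← hagree (b : G) b.2 hb]
  · exact ⟨Sum.inr (a * b), rfl, map_mul f₂ a b⟩

/-- reduced words : alternating without letters in `K`, or a single letter of `K` -/
def S41trRed (w : List (H₁ ⊕ H₂)) : Prop :=
  ((∀ l ∈ w, s41trVal H₁ H₂ l ∉ H₁ ⊓ H₂) ∧ w.IsChain (fun a b => a.isLeft ≠ b.isLeft)) ∨
    ∃ l, w = [l] ∧ s41trVal H₁ H₂ l ∈ H₁ ⊓ H₂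

theorem s41tr_chain_head {m m' : H₁ ⊕ H₂} {t : List (H₁ ⊕ H₂)} (h : m'.isLeft = m.isLeft)
    (hc : (m :: t).IsChain (fun a b => a.isLeft ≠ b.isLeft)) :
    (m' :: t).IsChain (fun a b => a.isLeft ≠ b.isLeft) := by
  cases t with
  | nil => exact List.isChain_singleton _
  | cons x t =>
    rw [List.isChain_cons_cons] at hc ⊢
    exact ⟨by rw [h]; exact hc.1, hc.2⟩

theorem s41tr_not_mem_of_mul {x y : G} (hx : x ∈ H₁ ⊓ H₂) (hy : y ∉ H₁ ⊓ H₂) :
    x * y ∉ H₁ ⊓ H₂ := fun h => hy (by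
  have := (H₁ ⊓ H₂).mul_mem ((H₁ ⊓ H₂).inv_mem hx) h
  rwa [inv_mul_cancel_left] at this)

/-- every word is equivalent to a reduced word -/
theorem s41tr_exists_red
    (hagree : ∀ (x : G) (h1 : x ∈ H₁) (h2 : x ∈ H₂), f₁ ⟨x, h1⟩ = f₂ ⟨x, h2⟩)
    (w : List (H₁ ⊕ H₂)) :
    ∃ w' : List (H₁ ⊕ H₂), (w'.map (s41trVal H₁ H₂)).prod = (w.map (s41trVal H₁ H₂)).prod ∧
      (w'.map (s41trF f₁ f₂)).prod = (w.map (s41trF f₁ f₂)).prod ∧ S41trRed w' := by
  induction w with
  | nil => exact ⟨[], rfl, rfl, Or.inl ⟨by simp, List.isChain_nil⟩⟩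
  | cons l t ih =>
    obtain ⟨t', hv, hf, hred⟩ := ih
    simp only [List.map_cons, List.prod_cons]
    rw [← hv, ← hf]
    rcases hred with ⟨hK, hc⟩ | ⟨k, rfl, hk⟩
    · -- `t'` alternating without letters in `K`
      cases t' with
      | nil =>
        refine ⟨[l], by simp, by simp, ?_⟩
        by_cases hl : s41trVal H₁ H₂ l ∈ H₁ ⊓ H₂
        · exact Or.inr ⟨l, rfl, hl⟩
        · exact Or.inl ⟨by simpa using hl, List.isChain_singleton _⟩
      | cons m t'' =>
        have hmK : s41trVal H₁ H₂ m ∉ H₁ ⊓ H₂ := hK m (by simp)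
        have htK : ∀ x ∈ t'', s41trVal H₁ H₂ x ∉ H₁ ⊓ H₂ := fun x hx => hK x (by simp [hx])
        by_cases hl : s41trVal H₁ H₂ l ∈ H₁ ⊓ H₂
        · obtain ⟨m', hm'v, hm'f, hm's⟩ := s41tr_merge_left hagree l m (Or.inr hl)
          refine ⟨m' :: t'', ?_, ?_, Or.inl ⟨?_, s41tr_chain_head hm's hc⟩⟩
          · simp only [List.map_cons, List.prod_cons, hm'v, mul_assoc]
          · simp only [List.map_cons, List.prod_cons, hm'f, mul_assoc]
          · intro x hx
            rcases List.mem_cons.1 hx with rfl | hx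
            · rw [hm'v]; exact s41tr_not_mem_of_mul hl hmK
            · exact htK x hx
        · by_cases hs : l.isLeft = m.isLeft
          · obtain ⟨m', hm'v, hm'f, hm's⟩ := s41tr_merge_left hagree l m (Or.inl hs)
            by_cases hm' : s41trVal H₁ H₂ m' ∈ H₁ ⊓ H₂
            · cases t'' with
              | nil =>
                refine ⟨[m'], ?_, ?_, Or.inr ⟨m', rfl, hm'⟩⟩
                · simp only [List.map_cons, List.prod_cons, hm'v, mul_assoc]
                · simp only [List.map_cons, List.prod_cons, hm'f, mul_assoc]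
              | cons m2 t3 =>
                have hm2K : s41trVal H₁ H₂ m2 ∉ H₁ ⊓ H₂ := htK m2 (by simp)
                obtain ⟨m'', hm''v, hm''f, hm''s⟩ :=
                  s41tr_merge_left hagree m' m2 (Or.inr hm')
                have hc2 : (m2 :: t3).IsChain (fun a b => a.isLeft ≠ b.isLeft) := by
                  rw [List.isChain_cons_cons] at hc
                  exact hc.2
                refine ⟨m'' :: t3, ?_, ?_, Or.inl ⟨?_, s41tr_chain_head hm''s hc2⟩⟩
                · simp only [List.map_cons, List.prod_cons, hm''v, hm'v, mul_assoc]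
                · simp only [List.map_cons, List.prod_cons, hm''f, hm'f, mul_assoc]
                · intro x hx
                  rcases List.mem_cons.1 hx with rfl | hx
                  · rw [hm''v]; exact s41tr_not_mem_of_mul hm' hm2K
                  · exact htK x (by simp [hx])
            · refine ⟨m' :: t'', ?_, ?_, Or.inl ⟨?_, s41tr_chain_head hm's hc⟩⟩
              · simp only [List.map_cons, List.prod_cons, hm'v, mul_assoc]
              · simp only [List.map_cons, List.prod_cons, hm'f, mul_assoc]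
              · intro x hx
                rcases List.mem_cons.1 hx with rfl | hx
                · exact hm'
                · exact htK x hx
          · refine ⟨l :: m :: t'', rfl, rfl, Or.inl ⟨?_, ?_⟩⟩
            · intro x hx
              rcases List.mem_cons.1 hx with rfl | hx
              · exact hl
              · exact hK x hx
            · rw [List.isChain_cons_cons]
              exact ⟨hs, hc⟩
    · -- `t' = [k]`, `k ∈ K`
      obtain ⟨l', hl'v, hl'f⟩ := s41tr_merge_right hagree l k (Or.inr hk)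
      refine ⟨[l'], ?_, ?_, ?_⟩
      · simp only [List.map_cons, List.map_nil, List.prod_cons, List.prod_nil, hl'v, mul_one]
      · simp only [List.map_cons, List.map_nil, List.prod_cons, List.prod_nil, hl'f, mul_one]
      · by_cases hl' : s41trVal H₁ H₂ l' ∈ H₁ ⊓ H₂
        · exact Or.inr ⟨l', rfl, hl'⟩
        · exact Or.inl ⟨by simpa using hl', List.isChain_singleton _⟩

/-- a word evaluating to `1` in `G` has value `1` in `A` -/
theorem s41tr_word_eq_one (hNF : S41trNF H₁ H₂)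
    (hagree : ∀ (x : G) (h1 : x ∈ H₁) (h2 : x ∈ H₂), f₁ ⟨x, h1⟩ = f₂ ⟨x, h2⟩)
    (w : List (H₁ ⊕ H₂)) (hw : (w.map (s41trVal H₁ H₂)).prod = 1) :
    (w.map (s41trF f₁ f₂)).prod = 1 := by
  obtain ⟨w', hv, hf, hred⟩ := s41tr_exists_red (f₁ := f₁) (f₂ := f₂) hagree w
  rw [← hf]
  rw [← hv] at hw
  rcases hred with ⟨hK, hc⟩ | ⟨k, rfl, hk⟩
  · by_cases hne : w' = []
    · rw [hne]; rfl
    · exact absurd hw (hNF w' hne hK hc)
  · simp only [List.map_cons, List.map_nil, List.prod_cons, List.prod_nil, mul_one] at hw ⊢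
    rcases k with a | a
    · have ha : a = 1 := Subtype.ext hw
      show f₁ a = 1
      rw [ha, map_one]
    · have ha : a = 1 := Subtype.ext hw
      show f₂ a = 1
      rw [ha, map_one]

/-- THE GLUING LEMMA. -/
theorem s41tr_glue (hgen : H₁ ⊔ H₂ = ⊤) (hNF : S41trNF H₁ H₂)
    (hagree : ∀ (x : G) (h1 : x ∈ H₁) (h2 : x ∈ H₂), f₁ ⟨x, h1⟩ = f₂ ⟨x, h2⟩) :
    ∃! F : G →* A, (∀ x : H₁, F (x : G) = f₁ x) ∧ (∀ x : H₂, F (x : G) = f₂ x) := by
  let ev : Coprod H₁ H₂ →* G := Coprod.lift H₁.subtype H₂.subtype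
  let φ : Coprod H₁ H₂ →* A := Coprod.lift f₁ f₂
  have hsurj : Function.Surjective ev := by
    rw [← MonoidHom.range_eq_top, Coprod.range_lift, Subgroup.range_subtype,
      Subgroup.range_subtype, hgen]
  have hker : ev.ker ≤ φ.ker := by
    intro z hz
    obtain ⟨w, rfl⟩ := Coprod.mk_surjective z
    rw [MonoidHom.mem_ker] at hz ⊢
    have h1 : ev (Coprod.mk w) = ((FreeMonoid.toList w).map (s41trVal H₁ H₂)).prod := by
      show Coprod.lift H₁.subtype H₂.subtype (Coprod.mk w) = _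
      rw [Coprod.lift_apply_mk, FreeMonoid.lift_apply]
      rfl
    have h2 : φ (Coprod.mk w) = ((FreeMonoid.toList w).map (s41trF f₁ f₂)).prod := by
      show Coprod.lift f₁ f₂ (Coprod.mk w) = _
      rw [Coprod.lift_apply_mk, FreeMonoid.lift_apply]
      rfl
    rw [h2]
    rw [h1] at hz
    exact s41tr_word_eq_one hNF hagree _ hz
  let F : G →* A := ev.liftOfSurjective hsurj ⟨φ, hker⟩
  have hF : ∀ z, F (ev z) = φ z := fun z =>
    ev.liftOfRightInverse_comp_apply _ _ ⟨φ, hker⟩ z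
  refine ⟨F, ⟨fun x => ?_, fun x => ?_⟩, ?_⟩
  · have := hF (Coprod.inl x)
    rwa [Coprod.lift_apply_inl, Coprod.lift_apply_inl] at this
  · have := hF (Coprod.inr x)
    rwa [Coprod.lift_apply_inr, Coprod.lift_apply_inr] at this
  · rintro F' ⟨h1, h2⟩
    have hcomp : F'.comp ev = φ := by
      apply Coprod.hom_ext
      · ext x
        simp only [MonoidHom.comp_apply]
        rw [Coprod.lift_apply_inl, Coprod.lift_apply_inl]
        exact h1 x
      · ext x
        simp only [MonoidHom.comp_apply]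
        rw [Coprod.lift_apply_inr, Coprod.lift_apply_inr]
        exact h2 x
    exact ev.eq_liftOfRightInverse _ _ φ hker F' hcomp

/-- THE GLUING LEMMA, on the subgroup generated by `H₁` and `H₂`. -/
theorem s41tr_glue_sup (hNF : S41trNF H₁ H₂)
    (hagree : ∀ (x : G) (h1 : x ∈ H₁) (h2 : x ∈ H₂), f₁ ⟨x, h1⟩ = f₂ ⟨x, h2⟩) :
    ∃! F : ↥(H₁ ⊔ H₂) →* A, (∀ x : H₁, F ⟨x, Subgroup.mem_sup_left x.2⟩ = f₁ x) ∧
      (∀ x : H₂, F ⟨x, Subgroup.mem_sup_right x.2⟩ = f₂ x) := by
  let ev : Coprod H₁ H₂ →* ↥(H₁ ⊔ H₂) :=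
    Coprod.lift (Subgroup.inclusion le_sup_left) (Subgroup.inclusion le_sup_right)
  let φ : Coprod H₁ H₂ →* A := Coprod.lift f₁ f₂
  have hev : ∀ z, ((ev z : ↥(H₁ ⊔ H₂)) : G) = Coprod.lift H₁.subtype H₂.subtype z := by
    intro z
    have : (H₁ ⊔ H₂).subtype.comp ev = Coprod.lift H₁.subtype H₂.subtype := by
      apply Coprod.hom_ext
      · ext x
        simp only [MonoidHom.comp_apply]
        rw [Coprod.lift_apply_inl, Coprod.lift_apply_inl]
        rfl
      · ext x
        simp only [MonoidHom.comp_apply]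
        rw [Coprod.lift_apply_inr, Coprod.lift_apply_inr]
        rfl
    exact DFunLike.congr_fun this z
  have hsurj : Function.Surjective ev := by
    rintro ⟨g, hg⟩
    have hr : (Coprod.lift H₁.subtype H₂.subtype).range = H₁ ⊔ H₂ := by
      rw [Coprod.range_lift, Subgroup.range_subtype, Subgroup.range_subtype]
    rw [← hr] at hg
    obtain ⟨z, hz⟩ := hg
    exact ⟨z, Subtype.ext (by rw [hev, hz])⟩
  have hker : ev.ker ≤ φ.ker := by
    intro z hz
    obtain ⟨w, rfl⟩ := Coprod.mk_surjective z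
    rw [MonoidHom.mem_ker] at hz ⊢
    have hz' : Coprod.lift H₁.subtype H₂.subtype (Coprod.mk w) = 1 := by
      rw [← hev, hz]; rfl
    have h1 : Coprod.lift H₁.subtype H₂.subtype (Coprod.mk w) =
        ((FreeMonoid.toList w).map (s41trVal H₁ H₂)).prod := by
      rw [Coprod.lift_apply_mk, FreeMonoid.lift_apply]
      rfl
    have h2 : φ (Coprod.mk w) = ((FreeMonoid.toList w).map (s41trF f₁ f₂)).prod := by
      show Coprod.lift f₁ f₂ (Coprod.mk w) = _
      rw [Coprod.lift_apply_mk, FreeMonoid.lift_apply]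
      rfl
    rw [h2]
    rw [h1] at hz'
    exact s41tr_word_eq_one hNF hagree _ hz'
  let F : ↥(H₁ ⊔ H₂) →* A := ev.liftOfSurjective hsurj ⟨φ, hker⟩
  have hF : ∀ z, F (ev z) = φ z := fun z =>
    ev.liftOfRightInverse_comp_apply _ _ ⟨φ, hker⟩ z
  refine ⟨F, ⟨fun x => ?_, fun x => ?_⟩, ?_⟩
  · have := hF (Coprod.inl x)
    rwa [Coprod.lift_apply_inl, Coprod.lift_apply_inl] at this
  · have := hF (Coprod.inr x)
    rwa [Coprod.lift_apply_inr, Coprod.lift_apply_inr] at this
  · rintro F' ⟨h1, h2⟩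
    have hcomp : F'.comp ev = φ := by
      apply Coprod.hom_ext
      · ext x
        simp only [MonoidHom.comp_apply]
        rw [Coprod.lift_apply_inl, Coprod.lift_apply_inl]
        exact h1 x
      · ext x
        simp only [MonoidHom.comp_apply]
        rw [Coprod.lift_apply_inr, Coprod.lift_apply_inr]
        exact h2 x
    exact ev.eq_liftOfRightInverse _ _ φ hker F' hcomp

end Glue

end Fermat.Agent.S41
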