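import Fermat.Agent.S41.TR.Conc
import Fermat.Agent.S41.TR.Glue

/-!
# S41, package TR : the normal form property by the height argument

Alternating words in `H₁ ∖ K` and `H₂ ∖ K` : the `q`-height equals the number of `H₂`-letters.
-/

set_option autoImplicit false

namespace Fermat.Agent.S41

open Matrix
open scoped MatrixGroups

/-- `q ^ m • g` is the integral matrix `M` -/
def S41trInt (q m : ℕ) (g : SL(2, ℚ)) (M : Fin 2 → Fin 2 → ℤ) : Prop :=
  ∀ i j, (q : ℚ) ^ m * g i j = M i j

/-- state after an `H₂`-letter -/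
def S41trStA (q : ℕ) (g : SL(2, ℚ)) : Prop :=
  ∃ (m : ℕ) (M : Fin 2 → Fin 2 → ℤ), 1 ≤ m ∧ S41trInt q m g M ∧ (q : ℤ) ∣ M 1 0 ∧ (q : ℤ) ∣ M 1 1 ∧
    ¬ ((q : ℤ) ∣ M 0 0 ∧ (q : ℤ) ∣ M 0 1)

/-- state after an `H₁`-letter (or at the start) -/
def S41trStB (q : ℕ) (g : SL(2, ℚ)) : Prop :=
  ∃ (m : ℕ) (M : Fin 2 → Fin 2 → ℤ), S41trInt q m g M ∧ ¬ ((q : ℤ) ∣ M 1 0 ∧ (q : ℤ) ∣ M 1 1)

theorem s41tr_stB_one {q : ℕ} (hq : q.Prime) : S41trStB q 1 := by
  refine ⟨0, fun i j => if i = j then 1 else 0, fun i j => ?_, ?_⟩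
  · rw [s41tr_one_apply]
    by_cases h : i = j <;> simp [h]
  · rintro ⟨-, h⟩
    have h' : (q : ℤ) ∣ 1 := by simpa using h
    have := Int.natCast_dvd_natCast.1 (by simpa using h' : ((q : ℕ) : ℤ) ∣ ((1 : ℕ) : ℤ))
    exact hq.one_lt.ne' (Nat.dvd_one.1 this)

/-- an `H₂`-letter not in `H₁` raises the height -/
theorem s41tr_stepY {q : ℕ} (hq : q.Prime) {N : ℕ} {y g : SL(2, ℚ)}
    (hy : y ∈ s41trH2 q hq.ne_zero N) (hy1 : y ∉ s41trH1 N) (hg : S41trStB q g) :
    S41trStA q (y * g) := by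
  have hq' : (q : ℚ) ≠ 0 := Nat.cast_ne_zero.2 hq.ne_zero
  have hqp : Prime (q : ℤ) := Nat.prime_iff_prime_int.1 hq
  obtain ⟨a, b, c, d, h00, h01, h10, h11, hN⟩ := s41tr_mem_H2.1 hy
  have hb : ¬ (q : ℤ) ∣ b := fun hqb => hy1 (s41tr_H2_mem_H1 hq.ne_zero h00 h01 h10 h11 hN hqb)
  obtain ⟨m, M, hM, hrow⟩ := hg
  refine ⟨m + 1, fun i j => if i = 0 then q * a * M 0 j + b * M 1 j
    else q * (q * c * M 0 j + d * M 1 j), Nat.le_add_left _ _, ?_, ?_, ?_, ?_⟩
  · intro i j
    rw [s41tr_mul_apply]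
    fin_cases i
    · simp only [Fin.zero_eta, Fin.isValue, if_true, h00, h01]
      push_cast
      rw [← hM 0 j, ← hM 1 j]
      field_simp
      ring
    · simp only [Fin.mk_one, Fin.isValue, one_ne_zero, if_false, h10, h11]
      push_cast
      rw [← hM 0 j, ← hM 1 j]
      ring
  · simp
  · simp
  · rintro ⟨h0, h1⟩
    simp only [Fin.isValue, if_true] at h0 h1
    apply hrow
    constructor
    · have : (q : ℤ) ∣ b * M 1 0 := (Int.dvd_add_right (Dvd.intro (a * M 0 0) (by ring))).1 h0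
      exact (hqp.dvd_or_dvd this).resolve_left hb
    · have : (q : ℤ) ∣ b * M 1 1 := (Int.dvd_add_right (Dvd.intro (a * M 0 1) (by ring))).1 h1
      exact (hqp.dvd_or_dvd this).resolve_left hb

/-- an `H₁`-letter not in `H₂` keeps the height and moves the kernel -/
theorem s41tr_stepX {q : ℕ} (hq : q.Prime) {N : ℕ} (hqN : Nat.Coprime N q) {x g : SL(2, ℚ)}
    (hx : x ∈ s41trH1 N) (hx2 : x ∉ s41trH2 q hq.ne_zero N) (hg : S41trStA q g) :
    S41trStB q (x * g) := by
  have hqp : Prime (q : ℤ) := Nat.prime_iff_prime_int.1 hq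
  obtain ⟨a, b, c, d, h00, h01, h10, h11, hN⟩ := s41tr_mem_H1.1 hx
  have hc : ¬ (q : ℤ) ∣ c := fun hqc =>
    hx2 (s41tr_H1_mem_H2 hq.ne_zero hqN h00 h01 h10 h11 hN hqc)
  obtain ⟨m, M, -, hM, hM10, hM11, hrow⟩ := hg
  refine ⟨m, fun i j => if i = 0 then a * M 0 j + b * M 1 j else c * M 0 j + d * M 1 j, ?_, ?_⟩
  · intro i j
    rw [s41tr_mul_apply]
    fin_cases i
    · simp only [Fin.zero_eta, Fin.isValue, if_true, h00, h01]
      push_cast
      rw [← hM 0 j, ← hM 1 j]
      ring
    · simp only [Fin.mk_one, Fin.isValue, one_ne_zero, if_false, h10, h11]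
      push_cast
      rw [← hM 0 j, ← hM 1 j]
      ring
  · rintro ⟨h0, h1⟩
    simp only [Fin.isValue, one_ne_zero, if_false] at h0 h1
    apply hrow
    constructor
    · have : (q : ℤ) ∣ c * M 0 0 := (Int.dvd_add_left (Dvd.dvd.mul_left hM10 d)).1 h0
      exact (hqp.dvd_or_dvd this).resolve_left hc
    · have : (q : ℤ) ∣ c * M 0 1 := (Int.dvd_add_left (Dvd.dvd.mul_left hM11 d)).1 h1
      exact (hqp.dvd_or_dvd this).resolve_left hc

/-- the state of the product of a reduced word, according to its first letter -/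
def S41trSt (q N : ℕ) (hq : q ≠ 0) : List (s41trH1 N ⊕ s41trH2 q hq N) → Prop
  | [] => True
  | (Sum.inl x :: t) =>
      S41trStB q (((Sum.inl x :: t).map (s41trVal (s41trH1 N) (s41trH2 q hq N))).prod)
  | (Sum.inr y :: t) =>
      S41trStA q (((Sum.inr y :: t).map (s41trVal (s41trH1 N) (s41trH2 q hq N))).prod)

theorem s41tr_height {q : ℕ} (hq : q.Prime) {N : ℕ} (hqN : Nat.Coprime N q)
    (w : List (s41trH1 N ⊕ s41trH2 q hq.ne_zero N))
    (hK : ∀ l ∈ w, s41trVal (s41trH1 N) (s41trH2 q hq.ne_zero N) l ∉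
      s41trH1 N ⊓ s41trH2 q hq.ne_zero N)
    (hc : w.IsChain (fun a b => a.isLeft ≠ b.isLeft)) : S41trSt q N hq.ne_zero w := by
  induction w with
  | nil => trivial
  | cons l t ih =>
    have iht := ih (fun l hl => hK l (List.mem_cons_of_mem _ hl)) hc.tail
    have hl := hK l (by simp)
    rcases l with x | y
    · -- an `H₁`-letter
      have hx2 : (x : SL(2, ℚ)) ∉ s41trH2 q hq.ne_zero N := fun h => hl ⟨x.2, h⟩
      cases t with
      | nil =>
        show S41trStB q _
        simp only [List.map_cons, List.map_nil, List.prod_cons, List.prod_nil, mul_one]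
        obtain ⟨a, b, c, d, h00, h01, h10, h11, hN⟩ := s41tr_mem_H1.1 x.2
        have hcq : ¬ (q : ℤ) ∣ c := fun hqc =>
          hx2 (s41tr_H1_mem_H2 hq.ne_zero hqN h00 h01 h10 h11 hN hqc)
        refine ⟨0, fun i j => if i = 0 then (if j = 0 then a else b) else (if j = 0 then c else d),
          fun i j => ?_, ?_⟩
        · show (q : ℚ) ^ 0 * (x : SL(2, ℚ)) i j = _
          fin_cases i <;> fin_cases j <;> simp [h00, h01, h10, h11]
        · rintro ⟨h, -⟩
          exact hcq (by simpa using h)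
      | cons l' t' =>
        rcases l' with x' | y'
        · exfalso
          rw [List.isChain_cons_cons] at hc
          exact hc.1 rfl
        · show S41trStB q _
          rw [List.map_cons, List.prod_cons]
          exact s41tr_stepX hq hqN x.2 hx2 iht
    · -- an `H₂`-letter
      have hy1 : (y : SL(2, ℚ)) ∉ s41trH1 N := fun h => hl ⟨h, y.2⟩
      show S41trStA q _
      rw [List.map_cons, List.prod_cons]
      apply s41tr_stepY hq y.2 hy1
      cases t with
      | nil => exact s41tr_stB_one hq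
      | cons l' t' =>
        rcases l' with x' | y'
        · exact iht
        · exfalso
          rw [List.isChain_cons_cons] at hc
          exact hc.1 rfl

/-- a matrix of state `A` is not integral -/
theorem s41tr_stA_not_int {q : ℕ} {g : SL(2, ℚ)} (hg : S41trStA q g)
    (hint : ∀ i j, ∃ z : ℤ, g i j = z) : False := by
  obtain ⟨m, M, hm, hM, -, -, hrow⟩ := hg
  obtain ⟨m', rfl⟩ : ∃ m', m = m' + 1 := ⟨m - 1, by omega⟩
  have key : ∀ i j, (q : ℤ) ∣ M i j := by
    intro i j
    obtain ⟨z, hz⟩ := hint i j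
    refine ⟨(q : ℤ) ^ m' * z, ?_⟩
    have := hM i j
    rw [hz] at this
    have h2 : ((M i j : ℤ) : ℚ) = (((q : ℤ) * ((q : ℤ) ^ m' * z) : ℤ) : ℚ) := by
      rw [← this]; push_cast; ring
    exact_mod_cast h2
  exact hrow ⟨key 0 0, key 0 1⟩

/-- THE NORMAL FORM PROPERTY for `H₁ = Γ₀(N)`, `H₂ = δ⁻¹ Γ₀(N) δ`. -/
theorem s41tr_NF {q : ℕ} (hq : q.Prime) {N : ℕ} (hqN : Nat.Coprime N q) :
    S41trNF (s41trH1 N) (s41trH2 q hq.ne_zero N) := by
  intro w hne hK hc hprod
  have hst := s41tr_height hq hqN w hK hc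
  cases w with
  | nil => exact hne rfl
  | cons l t =>
    rcases l with x | y
    · -- first letter in `H₁`
      cases t with
      | nil =>
        simp only [List.map_cons, List.map_nil, List.prod_cons, List.prod_nil, mul_one] at hprod
        apply hK (Sum.inl x) (by simp)
        rw [hprod]
        exact Subgroup.one_mem _
      | cons l' t' =>
        rcases l' with x' | y'
        · rw [List.isChain_cons_cons] at hc
          exact hc.1 rfl
        · have hst' := s41tr_height hq hqN (Sum.inr y' :: t')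
            (fun l hl => hK l (List.mem_cons_of_mem _ hl)) hc.tail
          rw [List.map_cons, List.prod_cons] at hprod
          have hinv : ((Sum.inr y' :: t').map
              (s41trVal (s41trH1 N) (s41trH2 q hq.ne_zero N))).prod = (x : SL(2, ℚ))⁻¹ :=
            eq_inv_of_mul_eq_one_right hprod
          have hA : S41trStA q ((x : SL(2, ℚ))⁻¹) := by
            rw [← hinv]; exact hst'
          apply s41tr_stA_not_int hA
          obtain ⟨a, b, c, d, h00, h01, h10, h11, -⟩ :=
            s41tr_mem_H1.1 ((s41trH1 N).inv_mem x.2)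
          intro i j
          fin_cases i <;> fin_cases j
          · exact ⟨a, h00⟩
          · exact ⟨b, h01⟩
          · exact ⟨c, h10⟩
          · exact ⟨d, h11⟩
    · -- first letter in `H₂`
      have hA : S41trStA q 1 := by
        rw [← hprod]; exact hst
      apply s41tr_stA_not_int hA
      intro i j
      rw [s41tr_one_apply]
      by_cases h : i = j
      · exact ⟨1, by simp [h]⟩
      · exact ⟨0, by simp [h]⟩

end Fermat.Agent.S41
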