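import Mathlib
import Fermat.Agent.S41.CSP.Defs
import Fermat.Agent.S41.CSP.Gen
import Fermat.Agent.S41.TR.Conc

/-!
# S41, package TR, piece (6) (helper11): unipotents (prefix `s41tru_`)

Every element of trace `2` of `Δ = Γ₀(N)(ℤ[1/q])` is `Δ`-conjugate into `Γ₀(N)`
(`gcd(N, q) = 1`).

Route: `g` fixes a primitive integral vector `(x, y)`; complete it to `γ ∈ SL₂(ℤ)`; then
`γ⁻¹ g γ = u(t)` with `t ∈ ℤ[1/q]`.  With `W = q ^ (φ(N) k) ≡ 1 mod N`, `k` large,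
`h := γ diag(W, W⁻¹) γ⁻¹ ∈ Δ` and `h g h⁻¹ = γ u(W² t) γ⁻¹` is integral.
-/

set_option autoImplicit false

namespace Fermat.Agent.S41

open Matrix
open scoped MatrixGroups

/-! ### `N • ℤ[1/q]` is an ideal of `ℤ[1/q]`; `Δ` is closed under products and inverses -/

theorem s41tru_Dvd_add {q M : ℕ} {y z : ℚ} (hy : s41cDvd q M y) (hz : s41cDvd q M z) :
    s41cDvd q M (y + z) := by
  obtain ⟨a, ha, rfl⟩ := hy
  obtain ⟨b, hb, rfl⟩ := hz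
  exact ⟨a + b, Subring.add_mem _ ha hb, by ring⟩

theorem s41tru_Dvd_neg {q M : ℕ} {y : ℚ} (hy : s41cDvd q M y) : s41cDvd q M (-y) := by
  obtain ⟨a, ha, rfl⟩ := hy
  exact ⟨-a, Subring.neg_mem _ ha, by ring⟩

theorem s41tru_Dvd_mul_right {q M : ℕ} {y z : ℚ} (hy : s41cDvd q M y) (hz : z ∈ s41cA q) :
    s41cDvd q M (y * z) := by
  obtain ⟨a, ha, rfl⟩ := hy
  exact ⟨a * z, Subring.mul_mem _ ha hz, by ring⟩

theorem s41tru_Dvd_mul_left {q M : ℕ} {y z : ℚ} (hz : z ∈ s41cA q) (hy : s41cDvd q M y) :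
    s41cDvd q M (z * y) := by
  obtain ⟨a, ha, rfl⟩ := hy
  exact ⟨z * a, Subring.mul_mem _ hz ha, by ring⟩

theorem s41tru_Delta_mul {q N : ℕ} {x y : SL(2, ℚ)} (hx : x ∈ s41cDelta q N)
    (hy : y ∈ s41cDelta q N) : x * y ∈ s41cDelta q N := by
  refine ⟨Subgroup.mul_mem _ hx.1 hy.1, ?_⟩
  rw [s41tr_mul_apply]
  exact s41tru_Dvd_add (s41tru_Dvd_mul_right hx.2 (hy.1 0 0))
    (s41tru_Dvd_mul_left (hx.1 1 1) hy.2)

theorem s41tru_Delta_inv {q N : ℕ} {x : SL(2, ℚ)} (hx : x ∈ s41cDelta q N) :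
    x⁻¹ ∈ s41cDelta q N := by
  refine ⟨Subgroup.inv_mem _ hx.1, ?_⟩
  rw [s41tr_inv_10]
  exact s41tru_Dvd_neg hx.2

theorem s41tru_Delta_one (q N : ℕ) : (1 : SL(2, ℚ)) ∈ s41cDelta q N := by
  refine ⟨Subgroup.one_mem _, 0, Subring.zero_mem _, ?_⟩
  rw [s41tr_one_apply]
  simp

/-- an integer in `N • ℤ[1/q]` is divisible by `N` (`gcd(N, q) = 1`) -/
theorem s41tru_dvd_of_Dvd {q N : ℕ} (hqN : N.Coprime q) {m : ℤ} (h : s41cDvd q N (m : ℚ)) :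
    (N : ℤ) ∣ m := by
  obtain ⟨z, ⟨k, n, hz⟩, hm⟩ := h
  have h1 : m * (q : ℤ) ^ k = N * n := by
    have : (m : ℚ) * (q : ℚ) ^ k = N * n := by rw [hm, mul_assoc, hz]
    exact_mod_cast this
  have hcop : IsCoprime (N : ℤ) ((q : ℤ) ^ k) := (Nat.isCoprime_iff_coprime.2 hqN).pow_right
  exact hcop.dvd_of_dvd_mul_right ⟨n, h1⟩

/-- an integral matrix lies in `SL₂(ℤ[1/q])` -/
theorem s41tru_cast_mem_G (q : ℕ) (x : SL(2, ℤ)) : s41trCast x ∈ s41cG q := by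
  intro i j
  rw [s41trCast_apply]
  exact s41cA_int q _

/-! ### the primitive fixed vector -/

theorem s41tru_fixed_vec (g : SL(2, ℚ)) (htr : g 0 0 + g 1 1 = 2) :
    ∃ x y : ℤ, IsCoprime x y ∧ g 0 0 * x + g 0 1 * y = x ∧ g 1 0 * x + g 1 1 * y = y := by
  have hdet := s41tr_det g
  generalize g 0 0 = a at *
  generalize g 0 1 = b at *
  generalize g 1 0 = c at *
  generalize g 1 1 = d at *
  have hd : d = 2 - a := by linarith
  subst hd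
  by_cases hc : c = 0
  · subst hc
    have h2 : (a - 1) ^ 2 = 0 := by linarith
    have ha : a = 1 := by
      have := pow_eq_zero_iff (two_ne_zero) |>.1 h2
      linarith
    subst ha
    exact ⟨1, 0, isCoprime_one_left, by simp, by simp⟩
  · set r : ℚ := (a - 1) / c with hr
    have hden : (r.den : ℚ) ≠ 0 := Nat.cast_ne_zero.2 r.den_ne_zero
    have hnum : (r.num : ℚ) = r * r.den := (Rat.mul_den_eq_num r).symm
    have hcr : c * r = a - 1 := by rw [hr]; field_simp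
    refine ⟨r.num, (r.den : ℤ), Rat.isCoprime_num_den r, ?_, ?_⟩
    · rw [hnum, Int.cast_natCast]
      have : c * (a * (r * r.den) + b * r.den - r * r.den) = 0 := by
        have e1 : c * (a * (r * r.den) + b * r.den - r * r.den)
            = r.den * ((a - 1) * (c * r) + b * c) := by ring
        rw [e1, hcr]
        have : (a - 1) * (a - 1) + b * c = 0 := by linarith
        rw [this, mul_zero]
      have := (mul_eq_zero.1 this).resolve_left hc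
      linarith
    · rw [hnum, Int.cast_natCast]
      have : c * (r * r.den) + (2 - a) * r.den = r.den * (c * r + (2 - a)) := by ring
      rw [this, hcr]
      ring

/-! ### entries of `diag(w, w⁻¹)` and `u(s)` -/

theorem s41tru_H_apply (w : ℚ) (hw : w ≠ 0) :
    s41cH w hw 0 0 = w ∧ s41cH w hw 0 1 = 0 ∧ s41cH w hw 1 0 = 0 ∧ s41cH w hw 1 1 = w⁻¹ :=
  ⟨rfl, rfl, rfl, rfl⟩

theorem s41tru_U_apply (s : ℚ) :
    s41cU s 0 0 = 1 ∧ s41cU s 0 1 = s ∧ s41cU s 1 0 = 0 ∧ s41cU s 1 1 = 1 :=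
  ⟨rfl, rfl, rfl, rfl⟩

/-- `h(w) u(s) h(w)⁻¹ = u(w² s)` -/
theorem s41tru_H_conj_U (w : ℚ) (hw : w ≠ 0) (s : ℚ) :
    s41cH w hw * s41cU s * (s41cH w hw)⁻¹ = s41cU (w * w * s) := by
  rw [s41cg_H_mul_U, mul_inv_cancel_right]

/-- the integral upper unipotent `[1, T; 0, 1] ∈ SL₂(ℤ)` -/
def s41truUz (T : ℤ) : SL(2, ℤ) := ⟨!![1, T; 0, 1], by simp [Matrix.det_fin_two_of]⟩

/-- an integral upper unipotent is the cast of an element of `SL₂(ℤ)` -/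
theorem s41tru_U_cast (T : ℤ) : s41cU (T : ℚ) = s41trCast (s41truUz T) := by
  apply s41tr_ext
  · show (1 : ℚ) = ((1 : ℤ) : ℚ)
    exact (Int.cast_one).symm
  · rfl
  · show (0 : ℚ) = ((0 : ℤ) : ℚ)
    exact (Int.cast_zero).symm
  · show (1 : ℚ) = ((1 : ℤ) : ℚ)
    exact (Int.cast_one).symm

/-! ### the main statement -/

/-- (6) a trace-`2` element of `Δ = Γ₀(N)(ℤ[1/q])` is `Δ`-conjugate into `Γ₀(N)`. -/
theorem s41tr_unip_conj {q N : ℕ} (hq : q.Prime) (hqN : N.Coprime q) {g : SL(2, ℚ)}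
    (hg : g ∈ s41cDelta q N) (htr : (g : Matrix (Fin 2) (Fin 2) ℚ).trace = 2) :
    ∃ h ∈ s41cDelta q N, h * g * h⁻¹ ∈ s41trH1 N := by
  have hq0 : q ≠ 0 := hq.ne_zero
  have hqQ : (q : ℚ) ≠ 0 := Nat.cast_ne_zero.2 hq0
  have htr' : g 0 0 + g 1 1 = 2 := by rwa [Matrix.trace_fin_two] at htr
  obtain ⟨x, y, hxy, hfx, hfy⟩ := s41tru_fixed_vec g htr'
  obtain ⟨u, v, huv⟩ := hxy
  -- `γ = [x, -v; y, u] ∈ SL₂(ℤ)`
  let γz : SL(2, ℤ) := ⟨!![x, -v; y, u], by rw [Matrix.det_fin_two_of]; linarith⟩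
  have γz00 : γz 0 0 = x := rfl
  have γz01 : γz 0 1 = -v := rfl
  have γz10 : γz 1 0 = y := rfl
  have γz11 : γz 1 1 = u := rfl
  obtain ⟨γ, hγ⟩ : ∃ γ : SL(2, ℚ), γ = s41trCast γz := ⟨_, rfl⟩
  have γ00 : γ 0 0 = x := by rw [hγ, s41trCast_apply, γz00]
  have γ01 : γ 0 1 = -v := by rw [hγ, s41trCast_apply, γz01]; push_cast; ring
  have γ10 : γ 1 0 = y := by rw [hγ, s41trCast_apply, γz10]
  have γ11 : γ 1 1 = u := by rw [hγ, s41trCast_apply, γz11]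
  have hγG : γ ∈ s41cG q := by rw [hγ]; exact s41tru_cast_mem_G q γz
  have huvQ : (u : ℚ) * x + v * y = 1 := by exact_mod_cast huv
  -- `m = γ⁻¹ g γ = u(t)`
  obtain ⟨m, hm⟩ : ∃ m : SL(2, ℚ), m = γ⁻¹ * g * γ := ⟨_, rfl⟩
  have hgγ0 : (g * γ) 0 0 = x := by rw [s41tr_mul_apply, γ00, γ10]; exact hfx
  have hgγ1 : (g * γ) 1 0 = y := by rw [s41tr_mul_apply, γ00, γ10]; exact hfy
  have m00 : m 0 0 = 1 := by
    rw [hm, mul_assoc, s41tr_mul_apply, s41tr_inv_00, s41tr_inv_01, hgγ0, hgγ1, γ11, γ01]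
    linarith
  have m10 : m 1 0 = 0 := by
    rw [hm, mul_assoc, s41tr_mul_apply, s41tr_inv_10, s41tr_inv_11, hgγ0, hgγ1, γ10, γ00]
    ring
  have m11 : m 1 1 = 1 := by
    have := s41tr_det m
    rw [m00, m10] at this
    linarith
  have hmG : m ∈ s41cG q := by
    rw [hm]
    exact Subgroup.mul_mem _ (Subgroup.mul_mem _ (Subgroup.inv_mem _ hγG) hg.1) hγG
  obtain ⟨t, ht⟩ : ∃ t : ℚ, t = m 0 1 := ⟨_, rfl⟩
  have hmU : m = s41cU t := by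
    obtain ⟨e1, e2, e3, e4⟩ := s41tru_U_apply t
    exact s41tr_ext (by rw [m00, e1]) (by rw [e2, ht]) (by rw [m10, e3]) (by rw [m11, e4])
  obtain ⟨k, n, hk⟩ : t ∈ s41cA q := by rw [ht]; exact hmG 0 1
  -- `W = q ^ (φ(N) k)`
  have hN0 : N ≠ 0 := by
    rintro rfl
    rw [Nat.coprime_zero_left] at hqN
    exact hq.one_lt.ne' hqN
  have hφ : 1 ≤ Nat.totient N := Nat.totient_pos.2 (Nat.pos_of_ne_zero hN0)
  obtain ⟨e, he⟩ : ∃ e : ℕ, e = Nat.totient N * k := ⟨_, rfl⟩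
  have hke : k ≤ 2 * e := by
    rw [he]
    nlinarith
  obtain ⟨W, hW⟩ : ∃ W : ℚ, W = (q : ℚ) ^ e := ⟨_, rfl⟩
  have hW0 : W ≠ 0 := by rw [hW]; exact pow_ne_zero _ hqQ
  have hWA : W ∈ s41cA q := by rw [hW]; exact Subring.pow_mem _ (s41cA_nat q q) e
  have hWiA : W⁻¹ ∈ s41cA q := by rw [hW]; exact s41cA_inv_pow hq0 e
  -- `N ∣ W² - 1`
  obtain ⟨M, hM⟩ : ∃ M : ℤ, W * W - 1 = N * M := by
    have h1 : q ^ Nat.totient N ≡ 1 [MOD N] := Nat.ModEq.pow_totient hqN.symm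
    have h2 : (q ^ Nat.totient N) ^ (k * 2) ≡ 1 ^ (k * 2) [MOD N] := h1.pow _
    rw [one_pow, ← pow_mul, ← mul_assoc, ← he] at h2
    obtain ⟨M, hM⟩ := Nat.modEq_iff_dvd.1 h2.symm
    refine ⟨M, ?_⟩
    have : ((q ^ (e * 2) : ℕ) : ℚ) - ((1 : ℕ) : ℚ) = N * M := by exact_mod_cast hM
    rw [hW, ← this]
    push_cast
    ring
  -- `W² t` is an integer
  obtain ⟨T, hT⟩ : ∃ T : ℤ, W * W * t = T := by
    refine ⟨(q : ℤ) ^ (2 * e - k) * n, ?_⟩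
    push_cast
    rw [← hk, hW]
    have : (q : ℚ) ^ e * (q : ℚ) ^ e = (q : ℚ) ^ (2 * e - k) * (q : ℚ) ^ k := by
      rw [← pow_add, ← pow_add]
      congr 1
      omega
    rw [this]
    ring
  -- the conjugating element
  obtain ⟨D, hD⟩ : ∃ D : SL(2, ℚ), D = s41cH W hW0 := ⟨_, rfl⟩
  have hDG : D ∈ s41cG q := by rw [hD]; exact s41cg_H_mem hW0 hWA hWiA
  obtain ⟨D00, D01, D10, D11⟩ := s41tru_H_apply W hW0
  rw [← hD] at D00 D01 D10 D11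
  have hhΔ : γ * D * γ⁻¹ ∈ s41cDelta q N := by
    refine ⟨Subgroup.mul_mem _ (Subgroup.mul_mem _ hγG hDG) (Subgroup.inv_mem _ hγG), ?_⟩
    have e1 : (γ * D * γ⁻¹) 1 0 = (N : ℚ) * (y * u * W⁻¹ * M) := by
      rw [s41tr_mul_apply, s41tr_mul_apply, s41tr_mul_apply, s41tr_inv_00, s41tr_inv_10,
        D00, D01, D10, D11, γ10, γ11]
      have : (y : ℚ) * u * (W - W⁻¹) = y * u * W⁻¹ * (W * W - 1) := by
        field_simp
      rw [hM] at this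
      linear_combination this
    rw [e1]
    exact ⟨_, Subring.mul_mem _ (Subring.mul_mem _ (Subring.mul_mem _ (s41cA_int q y)
      (s41cA_int q u)) hWiA) (s41cA_int q M), rfl⟩
  refine ⟨γ * D * γ⁻¹, hhΔ, ?_⟩
  have hconjΔ : γ * D * γ⁻¹ * g * (γ * D * γ⁻¹)⁻¹ ∈ s41cDelta q N :=
    s41tru_Delta_mul (s41tru_Delta_mul hhΔ hg) (s41tru_Delta_inv hhΔ)
  have hconj : γ * D * γ⁻¹ * g * (γ * D * γ⁻¹)⁻¹
      = s41trCast (γz * s41truUz T * γz⁻¹) := by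
    have e1 : γ * D * γ⁻¹ * g * (γ * D * γ⁻¹)⁻¹ = γ * (D * m * D⁻¹) * γ⁻¹ := by
      rw [hm]; group
    rw [e1, hmU, hD, s41tru_H_conj_U, hT, s41tru_U_cast, hγ, map_mul, map_mul, map_inv]
  rw [hconj] at hconjΔ ⊢
  refine s41tr_mem_H1.2 ⟨_, _, _, _, s41trCast_apply _ 0 0, s41trCast_apply _ 0 1,
    s41trCast_apply _ 1 0, s41trCast_apply _ 1 1, ?_⟩
  apply s41tru_dvd_of_Dvd hqN
  rw [← s41trCast_apply]
  exact hconjΔ.2

/-! ### trace `-2` -/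

theorem s41tru_neg_apply (g : SL(2, ℚ)) (i j : Fin 2) : (-g) i j = - g i j := by
  rw [Matrix.SpecialLinearGroup.coe_neg, Matrix.neg_apply]

theorem s41tru_neg_mem_Delta {q N : ℕ} {g : SL(2, ℚ)} (hg : g ∈ s41cDelta q N) :
    -g ∈ s41cDelta q N := by
  refine ⟨fun i j => ?_, ?_⟩
  · rw [s41tru_neg_apply]
    exact Subring.neg_mem _ (hg.1 i j)
  · rw [s41tru_neg_apply]
    exact s41tru_Dvd_neg hg.2

theorem s41tru_neg_mem_H1 {N : ℕ} {g : SL(2, ℚ)} (hg : g ∈ s41trH1 N) : -g ∈ s41trH1 N := by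
  obtain ⟨a, b, c, d, h00, h01, h10, h11, hN⟩ := s41tr_mem_H1.1 hg
  refine s41tr_mem_H1.2 ⟨-a, -b, -c, -d, ?_, ?_, ?_, ?_, (dvd_neg).2 hN⟩
  · rw [s41tru_neg_apply, h00]; push_cast; rfl
  · rw [s41tru_neg_apply, h01]; push_cast; rfl
  · rw [s41tru_neg_apply, h10]; push_cast; rfl
  · rw [s41tru_neg_apply, h11]; push_cast; rfl

/-- (6') the same for trace `± 2`. -/
theorem s41tr_unip_conj_pm {q N : ℕ} (hq : q.Prime) (hqN : N.Coprime q) {g : SL(2, ℚ)}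
    (hg : g ∈ s41cDelta q N)
    (htr : (g : Matrix (Fin 2) (Fin 2) ℚ).trace = 2 ∨ (g : Matrix (Fin 2) (Fin 2) ℚ).trace = -2) :
    ∃ h ∈ s41cDelta q N, h * g * h⁻¹ ∈ s41trH1 N := by
  rcases htr with htr | htr
  · exact s41tr_unip_conj hq hqN hg htr
  · have htr' : ((-g : SL(2, ℚ)) : Matrix (Fin 2) (Fin 2) ℚ).trace = 2 := by
      rw [Matrix.SpecialLinearGroup.coe_neg, Matrix.trace_neg, htr, neg_neg]
    obtain ⟨h, hh, hc⟩ := s41tr_unip_conj hq hqN (s41tru_neg_mem_Delta hg) htr'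
    refine ⟨h, hh, ?_⟩
    have : h * g * h⁻¹ = -(h * -g * h⁻¹) := by
      rw [mul_neg, neg_mul, neg_neg]
    rw [this]
    exact s41tru_neg_mem_H1 hc

end Fermat.Agent.S41
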