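import Fermat.Agent.S41.TR.Bridge
import Fermat.Agent.S41.TR.Unip

/-!
# S41, package TR : IHARA'S LEMMA, parabolic form

If `φ₁` kills the parabolic elements of `Γ₀(N)`, the glued `Φ` kills every element of `Δ_N` with
trace `± 2` (every such element is `Δ_N`-conjugate into `Γ₀(N)`).
-/

set_option autoImplicit false

namespace Fermat.Agent.S41

open Matrix
open scoped MatrixGroups

theorem s41trCast_trace (γ : SL(2, ℤ)) :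
    (s41trCast γ : Matrix (Fin 2) (Fin 2) ℚ).trace = ((γ : Matrix (Fin 2) (Fin 2) ℤ).trace : ℚ) := by
  rw [Matrix.trace_fin_two, Matrix.trace_fin_two, s41trCast_apply, s41trCast_apply]
  push_cast; rfl

theorem s41tr_trace_conj (h g : SL(2, ℚ)) :
    ((h * g * h⁻¹ : SL(2, ℚ)) : Matrix (Fin 2) (Fin 2) ℚ).trace =
      (g : Matrix (Fin 2) (Fin 2) ℚ).trace := by
  rw [Matrix.SpecialLinearGroup.coe_mul, Matrix.trace_mul_comm, ← Matrix.SpecialLinearGroup.coe_mul,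
    inv_mul_cancel_left]

/-- a function additive on `Δ_N` is conjugation invariant on `Δ_N` -/
theorem s41tr_additive_conj {q : ℕ} (hq : q ≠ 0) {N : ℕ} {𝔄 : Type*} [AddCommGroup 𝔄]
    {Φ : SL(2, ℚ) → 𝔄}
    (hΦ : ∀ x ∈ s41cDelta q N, ∀ y ∈ s41cDelta q N, Φ (x * y) = Φ x + Φ y)
    {h g : SL(2, ℚ)} (hh : h ∈ s41cDelta q N) (hg : g ∈ s41cDelta q N) :
    Φ (h * g * h⁻¹) = Φ g := by
  have hh' := (s41tr_mem_cDelta_iff hq).1 hh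
  have hg' := (s41tr_mem_cDelta_iff hq).1 hg
  have hinv : h⁻¹ ∈ s41cDelta q N := (s41tr_mem_cDelta_iff hq).2 ((s41trDel q N).inv_mem hh')
  have hhg : h * g ∈ s41cDelta q N := (s41tr_mem_cDelta_iff hq).2 ((s41trDel q N).mul_mem hh' hg')
  have h1 : Φ 1 = 0 := by
    have := hΦ 1 ((s41tr_mem_cDelta_iff hq).2 (s41trDel q N).one_mem) 1
      ((s41tr_mem_cDelta_iff hq).2 (s41trDel q N).one_mem)
    rw [mul_one] at this
    exact left_eq_add.mp this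
  have h2 : Φ h + Φ h⁻¹ = 0 := by
    rw [← hΦ h hh h⁻¹ hinv, mul_inv_cancel, h1]
  rw [hΦ (h * g) hhg h⁻¹ hinv, hΦ h hh g hg]
  calc Φ h + Φ g + Φ h⁻¹ = Φ g + (Φ h + Φ h⁻¹) := by abel
    _ = Φ g := by rw [h2, add_zero]

/-- IHARA'S LEMMA, parabolic form, in the CSP model. -/
theorem s41tr_ihara_par {q N : ℕ} (hq : q.Prime) (hqN : Nat.Coprime N q) {𝔄 : Type*}
    [AddCommGroup 𝔄] (φ₁ φ₂ : Additive (CongruenceSubgroup.Gamma0 N) →+ 𝔄)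
    (hker : ∀ γ₁ γ₂ : CongruenceSubgroup.Gamma0 N, γ₂.1 0 0 = γ₁.1 0 0 → γ₂.1 0 1 = q * γ₁.1 0 1 →
      q * γ₂.1 1 0 = γ₁.1 1 0 → γ₂.1 1 1 = γ₁.1 1 1 →
      φ₁ (Additive.ofMul γ₁) + φ₂ (Additive.ofMul γ₂) = 0)
    (hpar : ∀ γ : CongruenceSubgroup.Gamma0 N,
      ((γ : SL(2, ℤ)) : Matrix (Fin 2) (Fin 2) ℤ).trace ^ 2 = 4 → φ₁ (Additive.ofMul γ) = 0) :
    ∃ Φ : SL(2, ℚ) → 𝔄,
      (∀ x ∈ s41cDelta q N, ∀ y ∈ s41cDelta q N, Φ (x * y) = Φ x + Φ y) ∧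
      (∀ γ : CongruenceSubgroup.Gamma0 N, Φ (s41trCast γ) = φ₁ (Additive.ofMul γ)) ∧
      (∀ γ : CongruenceSubgroup.Gamma0 N,
        Φ (s41trConj q hq.ne_zero (s41trCast γ)) = - φ₂ (Additive.ofMul γ)) ∧
      (∀ x ∈ s41cDelta q N, (x : Matrix (Fin 2) (Fin 2) ℚ).trace = 2 ∨
        (x : Matrix (Fin 2) (Fin 2) ℚ).trace = -2 → Φ x = 0) := by
  obtain ⟨Φ, h1, h2, h3⟩ := s41tr_ihara_cDelta hq hqN φ₁ φ₂ hker
  refine ⟨Φ, h1, h2, h3, fun x hx htr => ?_⟩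
  obtain ⟨h, hh, hc⟩ := s41tr_unip_conj_pm hq hqN hx htr
  obtain ⟨γ, hγ, hγe⟩ := hc
  rw [← s41tr_additive_conj hq.ne_zero h1 hh hx, ← hγe]
  have := h2 ⟨γ, hγ⟩
  rw [this]
  apply hpar
  have ht : ((γ : Matrix (Fin 2) (Fin 2) ℤ).trace : ℚ) = (x : Matrix (Fin 2) (Fin 2) ℚ).trace := by
    rw [← s41trCast_trace, hγe, s41tr_trace_conj]
  have ht2 : (((γ : Matrix (Fin 2) (Fin 2) ℤ).trace ^ 2 : ℤ) : ℚ) = ((4 : ℤ) : ℚ) := by
    push_cast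
    rw [ht]
    rcases htr with e | e <;> rw [e] <;> norm_num
  exact_mod_cast ht2

end Fermat.Agent.S41
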